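/-
S55 / 45b-CD-ARITH (helper63), part 1: explicit inhomogeneous cochains in degrees `0..3` for a
`Representation k G A`, level constancy (over helper15's `Profin15.LevelStr`), naturality,
lifting along surjections and pulling back along kernels.

The formulas for `d23`, `d34` are exactly those of helper3's 45a-CD-ABS (report #1754, (D1)).
-/
import Mathlib
import Fermat.Agent.S55.Profin15.Level

set_option autoImplicit false
set_option linter.unusedSectionVars false
set_option linter.unusedVariables false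

universe u

namespace Fermat.Agent.S55.CDArith63

open Fermat.Agent.S55.Profin15

section Defs

variable {k : Type*} [CommRing k] {G : Type u} [Group G] {A : Type*} [AddCommGroup A] [Module k A]
  (ρ : Representation k G A)

/-- `d⁰ : A → (G → A)` -/
def d01 (x : A) : G → A := fun g => ρ g x - x

/-- `d¹ : (G → A) → (G × G → A)` (Mathlib's `d₁₂`) -/
def d12 (a : G → A) : G × G → A := fun x => ρ x.1 (a x.2) - a (x.1 * x.2) + a x.1

/-- `d² : (G × G → A) → (G × G × G → A)` -/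
def d23 (b : G × G → A) : G × G × G → A := fun x =>
  ρ x.1 (b (x.2.1, x.2.2)) - b (x.1 * x.2.1, x.2.2) + b (x.1, x.2.1 * x.2.2) - b (x.1, x.2.1)

/-- `d³ : (G × G × G → A) → (G × G × G × G → A)` -/
def d34 (f : G × G × G → A) : G × G × G × G → A := fun x =>
  ρ x.1 (f (x.2.1, x.2.2.1, x.2.2.2)) - f (x.1 * x.2.1, x.2.2.1, x.2.2.2)
    + f (x.1, x.2.1 * x.2.2.1, x.2.2.2) - f (x.1, x.2.1, x.2.2.1 * x.2.2.2) + f (x.1, x.2.1, x.2.2.1)

@[simp] theorem d01_apply (x : A) (g : G) : d01 ρ x g = ρ g x - x := rfl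
@[simp] theorem d12_apply (a : G → A) (g h : G) : d12 ρ a (g, h) = ρ g (a h) - a (g * h) + a g := rfl
@[simp] theorem d23_apply (b : G × G → A) (g h j : G) :
    d23 ρ b (g, h, j) = ρ g (b (h, j)) - b (g * h, j) + b (g, h * j) - b (g, h) := rfl
@[simp] theorem d34_apply (f : G × G × G → A) (g h i j : G) :
    d34 ρ f (g, h, i, j) = ρ g (f (h, i, j)) - f (g * h, i, j) + f (g, h * i, j) - f (g, h, i * j)
      + f (g, h, i) := rfl

theorem d12_d01 (x : A) : d12 ρ (d01 ρ x) = 0 := by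
  funext ⟨g, h⟩
  simp only [d12_apply, d01_apply, map_sub, map_mul, Module.End.mul_apply, Pi.zero_apply]
  abel

theorem d23_d12 (a : G → A) : d23 ρ (d12 ρ a) = 0 := by
  funext ⟨g, h, j⟩
  simp only [d23_apply, d12_apply, map_sub, map_add, map_mul, Module.End.mul_apply, Pi.zero_apply,
    mul_assoc]
  abel

theorem d34_d23 (b : G × G → A) : d34 ρ (d23 ρ b) = 0 := by
  funext ⟨g, h, i, j⟩
  simp only [d34_apply, d23_apply, map_sub, map_add, map_mul, Module.End.mul_apply, Pi.zero_apply,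
    mul_assoc]
  abel

/-! additivity -/

theorem d12_add (a a' : G → A) : d12 ρ (a + a') = d12 ρ a + d12 ρ a' := by
  funext ⟨g, h⟩; simp only [d12_apply, Pi.add_apply, map_add]; abel

theorem d12_sub (a a' : G → A) : d12 ρ (a - a') = d12 ρ a - d12 ρ a' := by
  funext ⟨g, h⟩; simp only [d12_apply, Pi.sub_apply, map_sub]; abel

theorem d12_zero : d12 ρ (0 : G → A) = 0 := by
  funext ⟨g, h⟩; simp

theorem d12_nsmul (n : ℕ) (a : G → A) : d12 ρ (n • a) = n • d12 ρ a := by
  funext ⟨g, h⟩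
  simp only [d12_apply, Pi.smul_apply, map_nsmul, smul_add, smul_sub]

theorem d12_zsmul (n : ℤ) (a : G → A) : d12 ρ (n • a) = n • d12 ρ a := by
  funext ⟨g, h⟩
  simp only [d12_apply, Pi.smul_apply, map_zsmul, smul_add, smul_sub]

theorem d23_add (b b' : G × G → A) : d23 ρ (b + b') = d23 ρ b + d23 ρ b' := by
  funext ⟨g, h, j⟩; simp only [d23_apply, Pi.add_apply, map_add]; abel

theorem d23_sub (b b' : G × G → A) : d23 ρ (b - b') = d23 ρ b - d23 ρ b' := by
  funext ⟨g, h, j⟩; simp only [d23_apply, Pi.sub_apply, map_sub]; abel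

theorem d23_zero : d23 ρ (0 : G × G → A) = 0 := by
  funext ⟨g, h, j⟩; simp

theorem d23_nsmul (n : ℕ) (b : G × G → A) : d23 ρ (n • b) = n • d23 ρ b := by
  funext ⟨g, h, j⟩
  simp only [d23_apply, Pi.smul_apply, map_nsmul, smul_add, smul_sub]

theorem d23_zsmul (n : ℤ) (b : G × G → A) : d23 ρ (n • b) = n • d23 ρ b := by
  funext ⟨g, h, j⟩
  simp only [d23_apply, Pi.smul_apply, map_zsmul, smul_add, smul_sub]

end Defs

/-! ### naturality -/

section Nat

variable {k k' : Type*} [CommRing k] [CommRing k'] {G : Type u} [Group G]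
  {A B : Type*} [AddCommGroup A] [Module k A] [AddCommGroup B] [Module k' B]
  (ρA : Representation k G A) (ρB : Representation k' G B) (φ : A →+ B)
  (hφ : ∀ g a, φ (ρA g a) = ρB g (φ a))

include hφ

theorem map_d01 (x : A) : φ ∘ d01 ρA x = d01 ρB (φ x) := by
  funext g; simp only [Function.comp_apply, d01_apply, map_sub, hφ]

theorem map_d12 (a : G → A) : φ ∘ d12 ρA a = d12 ρB (φ ∘ a) := by
  funext ⟨g, h⟩; simp only [Function.comp_apply, d12_apply, map_sub, map_add, hφ]

theorem map_d23 (b : G × G → A) : φ ∘ d23 ρA b = d23 ρB (φ ∘ b) := by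
  funext ⟨g, h, j⟩; simp only [Function.comp_apply, d23_apply, map_sub, map_add, hφ]

theorem map_d34 (f : G × G × G → A) : φ ∘ d34 ρA f = d34 ρB (φ ∘ f) := by
  funext ⟨g, h, i, j⟩; simp only [Function.comp_apply, d34_apply, map_sub, map_add, hφ]

end Nat

/-! ### level constancy -/

section Const

variable {G : Type u} [Group G] {𝒰 : LevelStr G}

theorem isConst₃_const {X : Type*} (x : X) : 𝒰.IsConst₃ (fun _ : G × G × G => x) := by
  obtain ⟨U, hU⟩ := 𝒰.nonempty
  exact ⟨U, hU, fun _ _ _ _ _ _ _ _ _ => rfl⟩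

theorem isConst₃_comp {X Y : Type*} {f : G × G × G → X} (hf : 𝒰.IsConst₃ f) (φ : X → Y) :
    𝒰.IsConst₃ (φ ∘ f) := by
  obtain ⟨U, hU, h⟩ := hf
  exact ⟨U, hU, fun g g' g'' s s' s'' hs hs' hs'' => by
    simp only [Function.comp_apply, h g g' g'' s s' s'' hs hs' hs'']⟩

theorem isConst₁_sub {X : Type*} [AddGroup X] {f f' : G → X} (hf : 𝒰.IsConst₁ f)
    (hf' : 𝒰.IsConst₁ f') : 𝒰.IsConst₁ (f - f') := by
  have h := hf.add (hf'.comp (fun x => -x))
  have e : f + (fun x => -x) ∘ f' = f - f' := by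
    funext g; simp [sub_eq_add_neg]
  rwa [e] at h

theorem isConst₂_sub {X : Type*} [AddGroup X] {f f' : G × G → X} (hf : 𝒰.IsConst₂ f)
    (hf' : 𝒰.IsConst₂ f') : 𝒰.IsConst₂ (f - f') := by
  have h := hf.add (hf'.comp (fun x => -x))
  have e : f + (fun x => -x) ∘ f' = f - f' := by
    funext g; simp [sub_eq_add_neg]
  rwa [e] at h

theorem isConst₁_nsmul {X : Type*} [AddMonoid X] (n : ℕ) {f : G → X} (hf : 𝒰.IsConst₁ f) :
    𝒰.IsConst₁ (n • f) := hf.comp (fun x => n • x)

theorem isConst₂_nsmul {X : Type*} [AddMonoid X] (n : ℕ) {f : G × G → X} (hf : 𝒰.IsConst₂ f) :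
    𝒰.IsConst₂ (n • f) := hf.comp (fun x => n • x)

theorem isConst₂_zsmul {X : Type*} [AddGroup X] (n : ℤ) {f : G × G → X} (hf : 𝒰.IsConst₂ f) :
    𝒰.IsConst₂ (n • f) := hf.comp (fun x => n • x)

theorem isConst₁_zsmul {X : Type*} [AddGroup X] (n : ℤ) {f : G → X} (hf : 𝒰.IsConst₁ f) :
    𝒰.IsConst₁ (n • f) := hf.comp (fun x => n • x)

end Const

/-! ### smoothness and `d¹` of level cochains -/

section Smooth

variable {k : Type*} [CommRing k] {G : Type u} [Group G] {A : Type*} [AddCommGroup A] [Module k A]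
  (𝒰 : LevelStr G) (ρ : Representation k G A)

/-- every vector is fixed by some level -/
def IsSmoothRep : Prop := ∀ a : A, ∃ U ∈ 𝒰.levels, ∀ s ∈ U, ρ s a = a

variable {𝒰 ρ}

theorem IsSmoothRep.exists_level_of_finite (hM : IsSmoothRep 𝒰 ρ) {s : Set A} (hs : s.Finite) :
    ∃ U ∈ 𝒰.levels, ∀ m ∈ s, ∀ g ∈ U, ρ g m = m := by
  induction s, hs using Set.Finite.induction_on with
  | empty =>
    obtain ⟨U, hU⟩ := 𝒰.nonempty
    exact ⟨U, hU, fun m hm => (Set.notMem_empty m hm).elim⟩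
  | insert _ _ ih =>
    rename_i a s _ _
    obtain ⟨U, hU, h⟩ := ih
    obtain ⟨V, hV, hV'⟩ := hM a
    obtain ⟨W, hW, hle⟩ := 𝒰.directed U hU V hV
    refine ⟨W, hW, fun m hm g hg => ?_⟩
    rcases Set.mem_insert_iff.1 hm with rfl | hm
    · exact hV' g (hle.trans inf_le_right hg)
    · exact h m hm g (hle.trans inf_le_left hg)

/-- for smooth `ρ`, `d¹` of a level cochain is a level cochain -/
theorem IsSmoothRep.isConst₂_d12 (hM : IsSmoothRep 𝒰 ρ) {f : G → A} (hf : 𝒰.IsConst₁ f) :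
    𝒰.IsConst₂ (d12 ρ f) := by
  obtain ⟨V, hV, hfix⟩ := hM.exists_level_of_finite hf.finite_range
  obtain ⟨W, hW, hle, hc⟩ := hf.exists_le hV
  haveI := 𝒰.normal W hW
  refine ⟨W, hW, fun g g' s s' hs hs' => ?_⟩
  simp only [d12_apply]
  have h1 : f (g' * s') = f g' := hc g' s' hs'
  have h2 : f (g * s) = f g := hc g s hs
  have h3 : f (g * s * (g' * s')) = f (g * g') := by
    have : g * s * (g' * s') = g * g' * ((g'⁻¹ * s * g') * s') := by group
    rw [this]
    exact hc _ _ (W.mul_mem (Subgroup.Normal.conj_mem' ‹_› s hs g') hs')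
  rw [h1, h2, h3, map_mul, Module.End.mul_apply, hfix (f g') ⟨g', rfl⟩ s (hle hs)]

/-- for smooth `ρ`, `d⁰ x` is a level cochain -/
theorem IsSmoothRep.isConst₁_d01 (hM : IsSmoothRep 𝒰 ρ) (x : A) : 𝒰.IsConst₁ (d01 ρ x) := by
  obtain ⟨U, hU, h⟩ := hM x
  refine ⟨U, hU, fun g s hs => ?_⟩
  simp only [d01_apply, map_mul, Module.End.mul_apply, h s hs]

end Smooth

/-! ### lifting and pulling back level cochains -/

section Lift

variable {G : Type u} [Group G] {𝒰 : LevelStr G} {J C E : Type*}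

theorem exists_lift₁ {π : J → C} (hπ : Function.Surjective π) {a : G → C} (ha : 𝒰.IsConst₁ a) :
    ∃ a' : G → J, 𝒰.IsConst₁ a' ∧ π ∘ a' = a :=
  ⟨Function.surjInv hπ ∘ a, ha.comp _, by
    funext g; simp only [Function.comp_apply, Function.surjInv_eq hπ]⟩

theorem exists_lift₂ {π : J → C} (hπ : Function.Surjective π) {a : G × G → C}
    (ha : 𝒰.IsConst₂ a) : ∃ a' : G × G → J, 𝒰.IsConst₂ a' ∧ π ∘ a' = a :=
  ⟨Function.surjInv hπ ∘ a, ha.comp _, by
    funext g; simp only [Function.comp_apply, Function.surjInv_eq hπ]⟩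

theorem exists_pull₁ [Zero E] {i : E → J} {b : G → J} (hb : 𝒰.IsConst₁ b)
    (hmem : ∀ g, b g ∈ Set.range i) : ∃ b' : G → E, 𝒰.IsConst₁ b' ∧ i ∘ b' = b := by
  classical
  let r : J → E := fun x => if h : x ∈ Set.range i then h.choose else 0
  refine ⟨r ∘ b, hb.comp r, ?_⟩
  funext g
  simp only [Function.comp_apply, r, dif_pos (hmem g)]
  exact (hmem g).choose_spec

theorem exists_pull₂ [Zero E] {i : E → J} {b : G × G → J} (hb : 𝒰.IsConst₂ b)
    (hmem : ∀ g, b g ∈ Set.range i) : ∃ b' : G × G → E, 𝒰.IsConst₂ b' ∧ i ∘ b' = b := by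
  classical
  let r : J → E := fun x => if h : x ∈ Set.range i then h.choose else 0
  refine ⟨r ∘ b, hb.comp r, ?_⟩
  funext g
  simp only [Function.comp_apply, r, dif_pos (hmem g)]
  exact (hmem g).choose_spec

end Lift

end Fermat.Agent.S55.CDArith63
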