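/-
S55 / 45b-CD-ARITH (helper63), part 3a: PURE ALGEBRA of a "p-class formation in the limit".

`X = H²(J)`, `Y = H²(C)`, `φ : X → Y`, local invariants `inv w : X → T` (`w ∈ W` finite),
global invariant `invY : Y → T`, reciprocity `invY (φ x) = ∑ w, inv w x`; local invariants are
jointly bijective on `p`-primary parts, `invY` is injective on the `p`-primary part.  Then
* every `p`-primary element of `Y` is in the range of `φ`;
* `ker φ` is `p`-divisible.
-/
import Mathlib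

set_option autoImplicit false
set_option linter.unusedSectionVars false
set_option linter.unusedVariables false

namespace Fermat.Agent.S55.CDArith63

section Alg

variable {p : ℕ} [hp : Fact p.Prime]
  {X Y T : Type*} [AddCommGroup X] [AddCommGroup Y] [AddCommGroup T]
  {W : Type*} [Fintype W]
  (φ : X →+ Y) (inv : W → (X →+ T)) (invY : Y →+ T)

/-- every `p`-primary element of `Y` is hit -/
theorem mem_range_of_primary (w₀ : W)
    (hsurj : ∀ (t : W → T) (n : ℕ), (∀ w, (p ^ n) • t w = 0) →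
      ∃ x : X, (p ^ n) • x = 0 ∧ ∀ w, inv w x = t w)
    (hinjY : ∀ (y : Y) (n : ℕ), (p ^ n) • y = 0 → invY y = 0 → y = 0)
    (hcompat : ∀ x : X, invY (φ x) = ∑ w, inv w x)
    (y : Y) (n : ℕ) (hy : (p ^ n) • y = 0) : ∃ x : X, (p ^ n) • x = 0 ∧ φ x = y := by
  classical
  set t₀ := invY y with ht₀
  have ht₀p : (p ^ n) • t₀ = 0 := by rw [ht₀, ← map_nsmul, hy, map_zero]
  obtain ⟨x, hx, hinv⟩ := hsurj (Pi.single w₀ t₀) n (by
    intro w
    by_cases h : w = w₀
    · subst h; simpa using ht₀p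
    · simp [Pi.single_eq_of_ne h])
  refine ⟨x, hx, ?_⟩
  have h1 : (p ^ n) • (y - φ x) = 0 := by
    rw [smul_sub, hy, ← map_nsmul, hx, map_zero, sub_zero]
  have h2 : invY (y - φ x) = 0 := by
    rw [map_sub, hcompat, Finset.sum_congr rfl (fun w _ => hinv w), Finset.sum_pi_single',
      if_pos (Finset.mem_univ _), sub_self]
  have := hinjY _ n h1 h2
  exact (sub_eq_zero.1 this).symm

/-- `ker φ` is `p`-divisible -/
theorem exists_div_of_mem_ker (w₀ : W)
    (htors : ∀ x : X, ∃ n : ℕ, 0 < n ∧ n • x = 0)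
    (hinj : ∀ (x : X) (n : ℕ), (p ^ n) • x = 0 → (∀ w, inv w x = 0) → x = 0)
    (hsurj : ∀ (t : W → T) (n : ℕ), (∀ w, (p ^ n) • t w = 0) →
      ∃ x : X, (p ^ n) • x = 0 ∧ ∀ w, inv w x = t w)
    (hTdiv : ∀ (t : T) (n : ℕ), (p ^ n) • t = 0 → ∃ t', p • t' = t ∧ (p ^ (n + 1)) • t' = 0)
    (hinjY : ∀ (y : Y) (n : ℕ), (p ^ n) • y = 0 → invY y = 0 → y = 0)
    (hcompat : ∀ x : X, invY (φ x) = ∑ w, inv w x)
    (x : X) (hx : φ x = 0) : ∃ z : X, φ z = 0 ∧ p • z = x := by
  classical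
  obtain ⟨n, hn0, hn⟩ := htors x
  obtain ⟨a, m, hm, rfl⟩ := Nat.exists_eq_pow_mul_and_not_dvd hn0.ne' p hp.out.ne_one
  have hcop : Nat.Coprime p m := (Nat.Prime.coprime_iff_not_dvd hp.out).2 hm
  have hcop' : Nat.Coprime (p ^ a) m := Nat.Coprime.pow_left a hcop
  -- Bezout for `p^a`, `m`
  have hb1 : ((p ^ a : ℕ) : ℤ) * Int.gcdA (p ^ a : ℕ) m + (m : ℤ) * Int.gcdB (p ^ a : ℕ) m = 1 := by
    have := Int.gcd_eq_gcd_ab ((p ^ a : ℕ) : ℤ) (m : ℤ)
    rw [Int.gcd_natCast_natCast, hcop'] at this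
    exact_mod_cast this.symm
  set v := Int.gcdA (p ^ a : ℕ) m
  set u := Int.gcdB (p ^ a : ℕ) m
  -- Bezout for `p`, `m`
  have hb2 : ((p : ℕ) : ℤ) * Int.gcdA p m + (m : ℤ) * Int.gcdB p m = 1 := by
    have := Int.gcd_eq_gcd_ab ((p : ℕ) : ℤ) (m : ℤ)
    rw [Int.gcd_natCast_natCast, hcop] at this
    exact_mod_cast this.symm
  set s := Int.gcdA p m
  set t' := Int.gcdB p m
  have hnx : (((p ^ a : ℕ) : ℤ) * (m : ℤ)) • x = 0 := by
    have : (((p ^ a : ℕ) : ℤ) * (m : ℤ)) • x = ((p ^ a * m : ℕ) : ℤ) • x := by push_cast; rfl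
    rw [this, natCast_zsmul, hn]
  -- the two parts
  set xp : X := ((m : ℤ) * u) • x with hxp
  set xq : X := (((p ^ a : ℕ) : ℤ) * v) • x with hxq
  have hsum : xp + xq = x := by
    rw [hxp, hxq, ← add_smul]
    have : (m : ℤ) * u + ((p ^ a : ℕ) : ℤ) * v = 1 := by linarith
    rw [this, one_smul]
  have hxp_pow : (p ^ a) • xp = 0 := by
    rw [hxp, ← natCast_zsmul, smul_smul]
    have : ((p ^ a : ℕ) : ℤ) * ((m : ℤ) * u) = u * (((p ^ a : ℕ) : ℤ) * (m : ℤ)) := by ring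
    rw [this, mul_smul, hnx, smul_zero]
  have hxq_m : (m : ℤ) • xq = 0 := by
    rw [hxq, smul_smul]
    have : (m : ℤ) * (((p ^ a : ℕ) : ℤ) * v) = v * (((p ^ a : ℕ) : ℤ) * (m : ℤ)) := by ring
    rw [this, mul_smul, hnx, smul_zero]
  have hφxp : φ xp = 0 := by rw [hxp, map_zsmul, hx, smul_zero]
  have hφxq : φ xq = 0 := by rw [hxq, map_zsmul, hx, smul_zero]
  -- prime-to-p part
  set zq : X := s • xq with hzq
  have hzq1 : p • zq = xq := by
    rw [hzq, ← natCast_zsmul, smul_smul]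
    have : ((p : ℕ) : ℤ) * s = 1 - (m : ℤ) * t' := by linarith
    rw [this, sub_smul, one_smul, mul_comm, mul_smul, hxq_m, smul_zero, sub_zero]
  have hzq2 : φ zq = 0 := by rw [hzq, map_zsmul, hφxq, smul_zero]
  -- p-primary part
  set xw : W → T := fun w => inv w xp with hxw
  have hxwp : ∀ w, (p ^ a) • xw w = 0 := by
    intro w
    simp only [hxw, ← map_nsmul, hxp_pow, map_zero]
  have hxwsum : ∑ w, xw w = 0 := by
    rw [← hcompat, hφxp, map_zero]
  choose zw hzw1 hzw2 using fun w => hTdiv (xw w) a (hxwp w)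
  set t : W → T := fun w => if w = w₀ then - ∑ w' ∈ Finset.univ.erase w₀, zw w' else zw w with ht
  have htsum : ∑ w, t w = 0 := by
    rw [← Finset.add_sum_erase _ _ (Finset.mem_univ w₀)]
    have h1 : t w₀ = - ∑ w' ∈ Finset.univ.erase w₀, zw w' := by simp [ht]
    have h2 : ∑ w ∈ Finset.univ.erase w₀, t w = ∑ w ∈ Finset.univ.erase w₀, zw w := by
      refine Finset.sum_congr rfl fun w hw => ?_
      simp [ht, Finset.ne_of_mem_erase hw]
    rw [h1, h2, neg_add_cancel]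
  have hpt : ∀ w, p • t w = xw w := by
    intro w
    by_cases h : w = w₀
    · subst h
      have h1 : t w = - ∑ w' ∈ Finset.univ.erase w, zw w' := by simp [ht]
      rw [h1, smul_neg, Finset.smul_sum, Finset.sum_congr rfl (fun w' _ => hzw1 w')]
      have := Finset.add_sum_erase Finset.univ xw (Finset.mem_univ w)
      rw [hxwsum] at this
      exact (eq_neg_of_add_eq_zero_left this).symm
    · simp [ht, h, hzw1]
  have hptp : ∀ w, (p ^ (a + 1)) • t w = 0 := by
    intro w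
    by_cases h : w = w₀
    · subst h
      have h1 : t w = - ∑ w' ∈ Finset.univ.erase w, zw w' := by simp [ht]
      rw [h1, smul_neg, Finset.smul_sum, Finset.sum_eq_zero (fun w' _ => hzw2 w'), neg_zero]
    · simp [ht, h, hzw2]
  obtain ⟨zp, hzp1, hzp2⟩ := hsurj t (a + 1) hptp
  have hzp3 : p • zp = xp := by
    have h1 : (p ^ (a + 1)) • (p • zp - xp) = 0 := by
      rw [smul_sub, smul_comm, hzp1, smul_zero, pow_succ, mul_comm, mul_smul, hxp_pow, smul_zero,
        sub_zero]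
    have h2 : ∀ w, inv w (p • zp - xp) = 0 := by
      intro w
      rw [map_sub, map_nsmul, hzp2, hpt, sub_self]
    exact sub_eq_zero.1 (hinj _ _ h1 h2)
  have hzp4 : φ zp = 0 := by
    refine hinjY _ (a + 1) ?_ ?_
    · rw [← map_nsmul, hzp1, map_zero]
    · rw [hcompat, Finset.sum_congr rfl (fun w _ => hzp2 w), htsum]
  refine ⟨zp + zq, by rw [map_add, hzp4, hzq2, add_zero], ?_⟩
  rw [smul_add, hzp3, hzq1, hsum]

end Alg

end Fermat.Agent.S55.CDArith63

namespace Fermat.Agent.S55.CDArith63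

/-- a torsion element becomes `p`-primary after multiplication by some `k ≡ 1 mod p` -/
theorem exists_one_mod_primary {p : ℕ} [hp : Fact p.Prime] {Y : Type*} [AddCommGroup Y] (y : Y)
    (htors : ∃ n : ℕ, 0 < n ∧ n • y = 0) :
    ∃ k a : ℕ, k % p = 1 ∧ (p ^ a) • (k • y) = 0 := by
  obtain ⟨n, hn0, hn⟩ := htors
  obtain ⟨a, m, hm, rfl⟩ := Nat.exists_eq_pow_mul_and_not_dvd hn0.ne' p hp.out.ne_one
  have hcop : Nat.Coprime m p := ((Nat.Prime.coprime_iff_not_dvd hp.out).2 hm).symm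
  obtain ⟨t, -, ht⟩ := Nat.exists_mul_mod_eq_one_of_coprime hcop hp.out.one_lt
  refine ⟨m * t, a, ht, ?_⟩
  rw [smul_smul]
  have : p ^ a * (m * t) = t * (p ^ a * m) := by ring
  rw [this, mul_smul, hn, smul_zero]

end Fermat.Agent.S55.CDArith63
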