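/-
S55 / 45b-CD-ARITH (helper63), part 2: the KUMMER STEP on explicit level cochains.

`E` a smooth `G`-module, `p`-divisible, with `E[p]` the image of `j : A → E`.  If
* every `p`-torsion-valued level `3`-cocycle of `E` is the coboundary of a level `2`-cochain
  (`H³(E)[p] = 0`), and
* every level `2`-cocycle of `E` is `p • (level 2-cocycle) + d (level 1-cochain)` (`H²(E)/p = 0`),
then level `H³` of `A` vanishes (`H3Van 𝒰 ρA`, the same Prop as helper3's `CD3.H3Vanishes`).
-/
import Fermat.Agent.S55.CDArith63.Cochain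

set_option autoImplicit false
set_option linter.unusedSectionVars false
set_option linter.unusedVariables false

universe u

namespace Fermat.Agent.S55.CDArith63

open Fermat.Agent.S55.Profin15

variable {G : Type u} [Group G] (𝒰 : LevelStr G)

/-- level `H³` of `ρ` vanishes: every level `3`-cocycle is `d` of a level `2`-cochain.
(Same formula as helper3's `CD3.H3Vanishes`.) -/
def H3Van {k : Type*} [CommRing k] {A : Type*} [AddCommGroup A] [Module k A]
    (ρ : Representation k G A) : Prop :=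
  ∀ f : G × G × G → A, 𝒰.IsConst₃ f → d34 ρ f = 0 →
    ∃ b : G × G → A, 𝒰.IsConst₂ b ∧ d23 ρ b = f

/-- `H³(E)[p] = 0` in cochain form. -/
def H3TorsVan (p : ℕ) {E : Type*} [AddCommGroup E] (ρE : Representation ℤ G E) : Prop :=
  ∀ f : G × G × G → E, 𝒰.IsConst₃ f → d34 ρE f = 0 → (∀ x, p • f x = 0) →
    ∃ b : G × G → E, 𝒰.IsConst₂ b ∧ d23 ρE b = f

/-- `H²(E)/p = 0` in cochain form. -/
def H2DivBy (p : ℕ) {E : Type*} [AddCommGroup E] (ρE : Representation ℤ G E) : Prop :=
  ∀ c : G × G → E, 𝒰.IsConst₂ c → d23 ρE c = 0 →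
    ∃ (c' : G × G → E) (a : G → E), 𝒰.IsConst₂ c' ∧ d23 ρE c' = 0 ∧ 𝒰.IsConst₁ a ∧
      c = p • c' + d12 ρE a

variable {𝒰}

/-- **Kummer step.** -/
theorem h3Van_of_kummer (p : ℕ) {k : Type*} [CommRing k]
    {E : Type*} [AddCommGroup E] (ρE : Representation ℤ G E) (hsm : IsSmoothRep 𝒰 ρE)
    {A : Type*} [AddCommGroup A] [Module k A] (ρA : Representation k G A)
    (j : A →+ E) (hj : Function.Injective j) (hjρ : ∀ g a, j (ρA g a) = ρE g (j a))
    (hpA : ∀ a : A, p • a = 0)
    (hjp : ∀ e : E, p • e = 0 → e ∈ Set.range j)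
    (hdiv : ∀ e : E, ∃ e', p • e' = e)
    (h3 : H3TorsVan 𝒰 p ρE) (h2 : H2DivBy 𝒰 p ρE) :
    H3Van 𝒰 ρA := by
  intro f hf hdf
  -- push `f` into `E`
  have hfE : 𝒰.IsConst₃ (j ∘ f) := isConst₃_comp hf j
  have hdfE : d34 ρE (j ∘ f) = 0 := by
    rw [← map_d34 ρA ρE j hjρ f, hdf]
    funext x
    simp
  have hpfE : ∀ x, p • (j ∘ f) x = 0 := by
    intro x
    simp only [Function.comp_apply, ← map_nsmul, hpA, map_zero]
  obtain ⟨b, hb, hdb⟩ := h3 (j ∘ f) hfE hdfE hpfE
  -- `c = p • b` is a level cocycle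
  have hc : 𝒰.IsConst₂ (p • b) := isConst₂_nsmul p hb
  have hdc : d23 ρE (p • b) = 0 := by
    rw [d23_nsmul, hdb]
    funext x
    simpa using hpfE x
  obtain ⟨c', a, hc', hdc', ha, hca⟩ := h2 (p • b) hc hdc
  -- a level `p`-th root of `a`
  let root : E → E := fun e => (hdiv e).choose
  have hroot : ∀ e, p • root e = e := fun e => (hdiv e).choose_spec
  have ha' : 𝒰.IsConst₁ (root ∘ a) := ha.comp root
  have hpa' : p • (root ∘ a) = a := by
    funext g
    simp only [Pi.smul_apply, Function.comp_apply, hroot]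
  -- the corrected cochain
  set b'' : G × G → E := b - c' - d12 ρE (root ∘ a) with hb''
  have hb''c : 𝒰.IsConst₂ b'' :=
    isConst₂_sub (isConst₂_sub hb hc') (hsm.isConst₂_d12 ha')
  have hpb'' : ∀ x, p • b'' x = 0 := by
    intro x
    have h1 : p • b'' = p • b - p • c' - d12 ρE (p • (root ∘ a)) := by
      rw [hb'', smul_sub, smul_sub, d12_nsmul]
    have h2 : p • b'' = 0 := by
      rw [h1, hpa', hca]
      abel
    have := congrFun h2 x
    simpa using this
  obtain ⟨bA, hbA, hjbA⟩ := exists_pull₂ (i := (j : A → E)) hb''c (fun x => hjp _ (hpb'' x))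
  refine ⟨bA, hbA, ?_⟩
  have hkey : j ∘ d23 ρA bA = j ∘ f := by
    rw [map_d23 ρA ρE j hjρ bA, hjbA, hb'', d23_sub, d23_sub, d23_d12, hdc', hdb]
    simp
  funext x
  exact hj (congrFun hkey x)

end Fermat.Agent.S55.CDArith63
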