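/-
S55 / 45b-CD-ARITH (helper63), part 3b: a "p-class formation in the limit"
`0 → E → J → C → 0` gives `H³(E)[p] = 0` and `H²(E)/p = 0` (level cochain forms
`H3TorsVan`, `H2DivBy`), hence with the Kummer step `H3Van 𝒰 (E[p])`.
-/
import Fermat.Agent.S55.CDArith63.Kummer
import Fermat.Agent.S55.CDArith63.FormationAlg

set_option autoImplicit false
set_option linter.unusedSectionVars false
set_option linter.unusedVariables false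

universe u

namespace Fermat.Agent.S55.CDArith63

open Fermat.Agent.S55.Profin15

variable {G : Type u} [Group G] (𝒰 : LevelStr G)

/-! ### level `2`-cocycles, `2`-coboundaries and `H²` -/

section ZB

variable {k : Type*} [CommRing k] {A : Type*} [AddCommGroup A] [Module k A]
  (ρ : Representation k G A)

theorem d23_neg (b : G × G → A) : d23 ρ (-b) = - d23 ρ b := by
  have := d23_sub ρ 0 b
  rwa [zero_sub, d23_zero, zero_sub] at this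

theorem d12_neg (a : G → A) : d12 ρ (-a) = - d12 ρ a := by
  have := d12_sub ρ 0 a
  rwa [zero_sub, d12_zero, zero_sub] at this

/-- level `2`-cocycles -/
def Z2 : AddSubgroup (G × G → A) where
  carrier := {c | 𝒰.IsConst₂ c ∧ d23 ρ c = 0}
  add_mem' := fun {a b} ha hb => ⟨ha.1.add hb.1, by rw [d23_add, ha.2, hb.2, add_zero]⟩
  zero_mem' := ⟨LevelStr.isConst₂_const 0, d23_zero ρ⟩
  neg_mem' := fun {a} ha => ⟨ha.1.comp (fun x => -x), by rw [d23_neg, ha.2, neg_zero]⟩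

/-- level `2`-coboundaries: `d¹` of level `1`-cochains -/
def B2 : AddSubgroup (G × G → A) where
  carrier := {c | ∃ a : G → A, 𝒰.IsConst₁ a ∧ d12 ρ a = c}
  add_mem' := by
    rintro _ _ ⟨a, ha, rfl⟩ ⟨b, hb, rfl⟩
    exact ⟨a + b, ha.add hb, d12_add ρ a b⟩
  zero_mem' := ⟨0, LevelStr.isConst₁_const 0, d12_zero ρ⟩
  neg_mem' := by
    rintro _ ⟨a, ha, rfl⟩
    exact ⟨-a, ha.comp (fun x => -x), d12_neg ρ a⟩

variable {𝒰 ρ}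

theorem mem_Z2_iff {c : G × G → A} : c ∈ Z2 𝒰 ρ ↔ 𝒰.IsConst₂ c ∧ d23 ρ c = 0 := Iff.rfl

theorem mem_B2_iff {c : G × G → A} :
    c ∈ B2 𝒰 ρ ↔ ∃ a : G → A, 𝒰.IsConst₁ a ∧ d12 ρ a = c := Iff.rfl

variable (𝒰 ρ)

/-- level `H²` -/
abbrev H2 : Type _ := ↥(Z2 𝒰 ρ) ⧸ (B2 𝒰 ρ).addSubgroupOf (Z2 𝒰 ρ)

/-- the class map -/
def H2mk : ↥(Z2 𝒰 ρ) →+ H2 𝒰 ρ := QuotientAddGroup.mk' _

variable {𝒰 ρ}

theorem H2mk_surjective : Function.Surjective (H2mk 𝒰 ρ) := QuotientAddGroup.mk'_surjective _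

theorem H2mk_eq_zero_iff (c : ↥(Z2 𝒰 ρ)) : H2mk 𝒰 ρ c = 0 ↔ (c : G × G → A) ∈ B2 𝒰 ρ := by
  rw [H2mk, QuotientAddGroup.mk'_apply, QuotientAddGroup.eq_zero_iff,
    AddSubgroup.mem_addSubgroupOf]

end ZB

/-! ### functoriality -/

section Map

variable {k k' : Type*} [CommRing k] [CommRing k'] {A B : Type*} [AddCommGroup A] [Module k A]
  [AddCommGroup B] [Module k' B] (ρA : Representation k G A) (ρB : Representation k' G B)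
  (φ : A →+ B) (hφ : ∀ g a, φ (ρA g a) = ρB g (φ a))

variable {𝒰}

include hφ in
theorem comp_mem_Z2 {c : G × G → A} (hc : c ∈ Z2 𝒰 ρA) : φ ∘ c ∈ Z2 𝒰 ρB := by
  refine ⟨hc.1.comp φ, ?_⟩
  rw [← map_d23 ρA ρB φ hφ c, hc.2]
  funext x
  simp

include hφ in
theorem comp_mem_B2 {c : G × G → A} (hc : c ∈ B2 𝒰 ρA) : φ ∘ c ∈ B2 𝒰 ρB := by
  obtain ⟨a, ha, rfl⟩ := hc
  exact ⟨φ ∘ a, ha.comp φ, (map_d12 ρA ρB φ hφ a).symm⟩

variable (𝒰)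

/-- push-forward of level cocycles -/
def mapZ2 : ↥(Z2 𝒰 ρA) →+ ↥(Z2 𝒰 ρB) where
  toFun c := ⟨φ ∘ (c : G × G → A), comp_mem_Z2 ρA ρB φ hφ c.2⟩
  map_zero' := by
    apply Subtype.ext
    funext x
    simp
  map_add' c c' := by
    apply Subtype.ext
    funext x
    simp

@[simp] theorem coe_mapZ2 (c : ↥(Z2 𝒰 ρA)) :
    ((mapZ2 𝒰 ρA ρB φ hφ c : ↥(Z2 𝒰 ρB)) : G × G → B) = φ ∘ (c : G × G → A) := rfl

/-- push-forward on level `H²` -/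
def mapH2 : H2 𝒰 ρA →+ H2 𝒰 ρB :=
  QuotientAddGroup.map _ _ (mapZ2 𝒰 ρA ρB φ hφ) (by
    intro c hc
    rw [AddSubgroup.mem_comap, AddSubgroup.mem_addSubgroupOf, coe_mapZ2]
    exact comp_mem_B2 ρA ρB φ hφ (AddSubgroup.mem_addSubgroupOf.1 hc))

theorem mapH2_mk (c : ↥(Z2 𝒰 ρA)) :
    mapH2 𝒰 ρA ρB φ hφ (H2mk 𝒰 ρA c) = H2mk 𝒰 ρB (mapZ2 𝒰 ρA ρB φ hφ c) := rfl

end Map

/-! ### the formation -/

theorem nsmul_eq_self_of_mod {Y : Type*} [AddCommGroup Y] {p k : ℕ} (hk : k % p = 1) {y : Y}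
    (hy : p • y = 0) : k • y = y := by
  conv_lhs => rw [← Nat.div_add_mod k p, hk]
  rw [add_smul, one_smul, mul_comm, mul_smul, hy, smul_zero, zero_add]

section Formation

variable {p : ℕ} [hp : Fact p.Prime]
  {E J C : Type*} [AddCommGroup E] [AddCommGroup J] [AddCommGroup C]
  (ρE : Representation ℤ G E) (ρJ : Representation ℤ G J) (ρC : Representation ℤ G C)
  (i : E →+ J) (π : J →+ C)
  (hiρ : ∀ g e, i (ρE g e) = ρJ g (i e)) (hπρ : ∀ g x, π (ρJ g x) = ρC g (π x))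
  (hi : Function.Injective i) (hπ : Function.Surjective π) (hπi : ∀ e, π (i e) = 0)
  (hex : ∀ x, π x = 0 → x ∈ Set.range i)
  (hsmJ : IsSmoothRep 𝒰 ρJ)
  {W : Type*} [Fintype W] (w₀ : W) {T : Type*} [AddCommGroup T]
  (invJ : W → (H2 𝒰 ρJ →+ T)) (invC : H2 𝒰 ρC →+ T)
  (htorsJ : ∀ x : H2 𝒰 ρJ, ∃ n : ℕ, 0 < n ∧ n • x = 0)
  (htorsC : ∀ y : H2 𝒰 ρC, ∃ n : ℕ, 0 < n ∧ n • y = 0)
  (hinj : ∀ (x : H2 𝒰 ρJ) (n : ℕ), (p ^ n) • x = 0 → (∀ w, invJ w x = 0) → x = 0)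
  (hsurj : ∀ (t : W → T) (n : ℕ), (∀ w, (p ^ n) • t w = 0) →
    ∃ x : H2 𝒰 ρJ, (p ^ n) • x = 0 ∧ ∀ w, invJ w x = t w)
  (hTdiv : ∀ (t : T) (n : ℕ), (p ^ n) • t = 0 → ∃ t', p • t' = t ∧ (p ^ (n + 1)) • t' = 0)
  (hinjC : ∀ (y : H2 𝒰 ρC) (n : ℕ), (p ^ n) • y = 0 → invC y = 0 → y = 0)
  (hcompat : ∀ x : H2 𝒰 ρJ, invC (mapH2 𝒰 ρJ ρC π hπρ x) = ∑ w, invJ w x)
  (hH1C : ∀ a : G → C, 𝒰.IsConst₁ a → d12 ρC a = 0 → ∃ γ : C, d01 ρC γ = a)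
  (hH3J : H3Van 𝒰 ρJ)

include hi hπ hπi hex hsmJ w₀ htorsC hsurj hinjC hcompat hH3J hiρ in
/-- `H³(E)[p] = 0` -/
theorem h3TorsVan_of_formation : H3TorsVan 𝒰 p ρE := by
  intro f hf hdf hpf
  obtain ⟨bJ, hbJ, hdbJ⟩ := hH3J (i ∘ f) (isConst₃_comp hf i) (by
    rw [← map_d34 ρE ρJ i hiρ f, hdf]
    funext x
    simp)
  have hcC0 : π ∘ bJ ∈ Z2 𝒰 ρC := by
    refine ⟨hbJ.comp π, ?_⟩
    rw [← map_d23 ρJ ρC π hπρ bJ, hdbJ]
    funext x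
    simp [hπi]
  obtain ⟨k, a, hk, hka⟩ := exists_one_mod_primary (p := p) (H2mk 𝒰 ρC ⟨π ∘ bJ, hcC0⟩) (htorsC _)
  obtain ⟨x, -, hφx⟩ := mem_range_of_primary (mapH2 𝒰 ρJ ρC π hπρ) invJ invC w₀ hsurj hinjC
    hcompat (k • H2mk 𝒰 ρC ⟨π ∘ bJ, hcC0⟩) a hka
  obtain ⟨cJ, rfl⟩ := H2mk_surjective x
  -- `k • (π ∘ bJ) - π ∘ cJ` is a coboundary
  have hB : k • (π ∘ bJ) - π ∘ (cJ : G × G → J) ∈ B2 𝒰 ρC := by
    have h0 : H2mk 𝒰 ρC (k • ⟨π ∘ bJ, hcC0⟩ - mapZ2 𝒰 ρJ ρC π hπρ cJ) = 0 := by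
      rw [map_sub, map_nsmul, ← mapH2_mk, hφx, sub_self]
    have := (H2mk_eq_zero_iff _).1 h0
    simpa using this
  obtain ⟨aC, haC, hdaC⟩ := hB
  obtain ⟨aJ, haJ, hπaJ⟩ := exists_lift₁ hπ haC
  set bJ'' : G × G → J := k • bJ - (cJ : G × G → J) - d12 ρJ aJ with hbJ''
  have hbJ''c : 𝒰.IsConst₂ bJ'' :=
    isConst₂_sub (isConst₂_sub (isConst₂_nsmul k hbJ) cJ.2.1) (hsmJ.isConst₂_d12 haJ)
  have hπb : ∀ x, π (bJ'' x) = 0 := by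
    intro x
    have h1 : π ∘ bJ'' = k • (π ∘ bJ) - π ∘ (cJ : G × G → J) - d12 ρC (π ∘ aJ) := by
      rw [← map_d12 ρJ ρC π hπρ aJ]
      funext y
      simp [hbJ'']
    have h2 : π ∘ bJ'' = 0 := by
      rw [h1, hπaJ, hdaC, sub_self]
    exact congrFun h2 x
  obtain ⟨bE, hbE, hibE⟩ := exists_pull₂ (i := (i : E → J)) hbJ''c (fun x => hex _ (hπb x))
  refine ⟨bE, hbE, ?_⟩
  have hkf : k • (i ∘ f) = i ∘ f := by
    funext x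
    simp only [Pi.smul_apply, Function.comp_apply, ← map_nsmul,
      nsmul_eq_self_of_mod hk (hpf x)]
  have hkey : i ∘ d23 ρE bE = i ∘ f := by
    rw [map_d23 ρE ρJ i hiρ bE, hibE, hbJ'', d23_sub, d23_sub, d23_d12, cJ.2.2, d23_nsmul, hdbJ,
      hkf]
    simp
  funext x
  exact hi (congrFun hkey x)

include hi hπ hπi hex hsmJ w₀ htorsJ hinj hsurj hTdiv hinjC hcompat hH1C hiρ in
/-- `H²(E)/p = 0` -/
theorem h2DivBy_of_formation : H2DivBy 𝒰 p ρE := by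
  intro c hc hdc
  have hcJ : i ∘ c ∈ Z2 𝒰 ρJ := comp_mem_Z2 ρE ρJ i hiρ ⟨hc, hdc⟩
  have hφ0 : mapH2 𝒰 ρJ ρC π hπρ (H2mk 𝒰 ρJ ⟨i ∘ c, hcJ⟩) = 0 := by
    rw [mapH2_mk]
    have : mapZ2 𝒰 ρJ ρC π hπρ ⟨i ∘ c, hcJ⟩ = 0 := by
      apply Subtype.ext
      funext x
      simp [hπi]
    rw [this, map_zero]
  obtain ⟨z, hz0, hpz⟩ := exists_div_of_mem_ker (mapH2 𝒰 ρJ ρC π hπρ) invJ invC w₀ htorsJ hinj
    hsurj hTdiv hinjC hcompat _ hφ0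
  obtain ⟨zJ, rfl⟩ := H2mk_surjective z
  have hB1 : π ∘ (zJ : G × G → J) ∈ B2 𝒰 ρC := by
    rw [mapH2_mk] at hz0
    have := (H2mk_eq_zero_iff _).1 hz0
    simpa using this
  have hB2 : p • (zJ : G × G → J) - i ∘ c ∈ B2 𝒰 ρJ := by
    have h0 : H2mk 𝒰 ρJ (p • zJ - ⟨i ∘ c, hcJ⟩) = 0 := by
      rw [map_sub, map_nsmul, hpz, sub_self]
    have := (H2mk_eq_zero_iff _).1 h0
    simpa using this
  obtain ⟨aC, haC, hdaC⟩ := hB1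
  obtain ⟨aJ, haJ, hπaJ⟩ := exists_lift₁ hπ haC
  -- correct `zJ` so that it comes from `E`
  set zJ' : G × G → J := (zJ : G × G → J) - d12 ρJ aJ with hzJ'
  have hzJ'c : 𝒰.IsConst₂ zJ' := isConst₂_sub zJ.2.1 (hsmJ.isConst₂_d12 haJ)
  have hπz : ∀ x, π (zJ' x) = 0 := by
    intro x
    have h1 : π ∘ zJ' = π ∘ (zJ : G × G → J) - d12 ρC (π ∘ aJ) := by
      rw [← map_d12 ρJ ρC π hπρ aJ]
      funext y
      simp [hzJ']
    have h2 : π ∘ zJ' = 0 := by rw [h1, hπaJ, hdaC, sub_self]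
    exact congrFun h2 x
  obtain ⟨c', hc', hic'⟩ := exists_pull₂ (i := (i : E → J)) hzJ'c (fun x => hex _ (hπz x))
  have hdc' : d23 ρE c' = 0 := by
    have hkey : i ∘ d23 ρE c' = 0 := by
      rw [map_d23 ρE ρJ i hiρ c', hic', hzJ', d23_sub, d23_d12, zJ.2.2, sub_zero]
    funext x
    have := congrFun hkey x
    simp only [Function.comp_apply, Pi.zero_apply] at this
    exact hi (by rw [this]; simp)
  -- the difference `p • c' - c` is a coboundary in `J`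
  obtain ⟨αJ0, hαJ0, hdαJ0⟩ := hB2
  set αJ : G → J := αJ0 - p • aJ with hαJ
  have hαJc : 𝒰.IsConst₁ αJ := isConst₁_sub hαJ0 (isConst₁_nsmul p haJ)
  have hdαJ : d12 ρJ αJ = i ∘ (p • c' - c) := by
    rw [hαJ, d12_sub, d12_nsmul, hdαJ0]
    have : i ∘ (p • c' - c) = p • (i ∘ c') - i ∘ c := by
      funext x
      simp
    rw [this, hic', hzJ', smul_sub]
    abel
  have hπα : d12 ρC (π ∘ αJ) = 0 := by
    rw [← map_d12 ρJ ρC π hπρ αJ, hdαJ]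
    funext x
    simp [hπi]
  obtain ⟨γ, hγ⟩ := hH1C (π ∘ αJ) (hαJc.comp π) hπα
  obtain ⟨γJ, hγJ⟩ := hπ γ
  set αJ' : G → J := αJ - d01 ρJ γJ with hαJ'
  have hαJ'c : 𝒰.IsConst₁ αJ' := isConst₁_sub hαJc (hsmJ.isConst₁_d01 γJ)
  have hπα' : ∀ g, π (αJ' g) = 0 := by
    intro g
    have h1 : π ∘ αJ' = π ∘ αJ - d01 ρC (π γJ) := by
      rw [← map_d01 ρJ ρC π hπρ γJ]
      funext y
      simp [hαJ']
    have h2 : π ∘ αJ' = 0 := by rw [h1, hγJ, hγ, sub_self]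
    exact congrFun h2 g
  obtain ⟨αE, hαE, hiαE⟩ := exists_pull₁ (i := (i : E → J)) hαJ'c (fun g => hex _ (hπα' g))
  have hdαE : d12 ρE αE = p • c' - c := by
    have hkey : i ∘ d12 ρE αE = i ∘ (p • c' - c) := by
      rw [map_d12 ρE ρJ i hiρ αE, hiαE, hαJ', d12_sub, d12_d01, sub_zero, hdαJ]
    funext x
    exact hi (congrFun hkey x)
  refine ⟨c', -αE, hc', hdc', hαE.comp (fun x => -x), ?_⟩
  rw [d12_neg, hdαE]
  abel

include hi hπ hπi hex hsmJ w₀ htorsJ htorsC hinj hsurj hTdiv hinjC hcompat hH1C hH3J hiρ in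
/-- **45b, abstract core.**  A `p`-class formation in the limit `0 → E → J → C → 0` with `E`
smooth and `p`-divisible, `E[p] = j(A)`: level `H³` of `A` vanishes. -/
theorem h3Van_of_formation (hsmE : IsSmoothRep 𝒰 ρE)
    {k : Type*} [CommRing k] {A : Type*} [AddCommGroup A] [Module k A]
    (ρA : Representation k G A) (j : A →+ E) (hj : Function.Injective j)
    (hjρ : ∀ g a, j (ρA g a) = ρE g (j a)) (hpA : ∀ a : A, p • a = 0)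
    (hjp : ∀ e : E, p • e = 0 → e ∈ Set.range j) (hdiv : ∀ e : E, ∃ e', p • e' = e) :
    H3Van 𝒰 ρA :=
  h3Van_of_kummer p ρE hsmE ρA j hj hjρ hpA hjp hdiv
    (h3TorsVan_of_formation 𝒰 ρE ρJ ρC i π hiρ hπρ hi hπ hπi hex hsmJ w₀ invJ invC htorsC hsurj
      hinjC hcompat hH3J)
    (h2DivBy_of_formation 𝒰 ρE ρJ ρC i π hiρ hπρ hi hπ hπi hex hsmJ w₀ invJ invC htorsJ hinj
      hsurj hTdiv hinjC hcompat hH1C)

end Formation

end Fermat.Agent.S55.CDArith63
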