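/-
S55 / 45b-CD-ARITH (helper63), part 4: level `H²` is torsion (no smoothness needed):
if the level `2`-cocycle `c` is constant modulo the level `U` then `[G:U] • c = d¹ a` with
`a g = ∑_{h ∈ G/U} c (g, h)`.  Hence the hypotheses `htorsJ`, `htorsC` of `Formation` are automatic.
-/
import Fermat.Agent.S55.CDArith63.Formation

set_option autoImplicit false
set_option linter.unusedSectionVars false
set_option linter.unusedVariables false

universe u

namespace Fermat.Agent.S55.CDArith63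

open Fermat.Agent.S55.Profin15

variable {G : Type u} [Group G] {𝒰 : LevelStr G}
  {k : Type*} [CommRing k] {A : Type*} [AddCommGroup A] [Module k A] {ρ : Representation k G A}

/-- a level `2`-cocycle is killed in level `H²` by the index of any level modulo which it is
constant -/
theorem exists_nsmul_mem_B2 {c : G × G → A} (hc : c ∈ Z2 𝒰 ρ) :
    ∃ n : ℕ, 0 < n ∧ n • c ∈ B2 𝒰 ρ := by
  classical
  obtain ⟨⟨U, hU, hconst⟩, hd⟩ := hc
  haveI := 𝒰.finiteIndex U hU
  haveI : Finite (G ⧸ U) := Subgroup.finite_quotient_of_finiteIndex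
  haveI : Fintype (G ⧸ U) := Fintype.ofFinite _
  -- `c (g, ·)` factors through `G ⧸ U`
  have hwd : ∀ g h h' : G, (QuotientGroup.mk h : G ⧸ U) = QuotientGroup.mk h' →
      c (g, h) = c (g, h') := by
    intro g h h' hh
    have hs : h⁻¹ * h' ∈ U := QuotientGroup.eq.1 hh
    have := hconst g h 1 (h⁻¹ * h') U.one_mem hs
    rw [mul_one, mul_inv_cancel_left] at this
    exact this.symm
  let cbar : G → G ⧸ U → A := fun g x => c (g, Quotient.out x)
  have hcbar : ∀ g h, cbar g (QuotientGroup.mk h) = c (g, h) := by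
    intro g h
    exact hwd g _ _ (QuotientGroup.out_eq' _)
  let a : G → A := fun g => ∑ x : G ⧸ U, cbar g x
  have ha : 𝒰.IsConst₁ a := by
    refine ⟨U, hU, fun g s hs => ?_⟩
    refine Finset.sum_congr rfl fun x _ => ?_
    have := hconst g (Quotient.out x) s 1 hs U.one_mem
    rw [mul_one] at this
    exact this
  refine ⟨Fintype.card (G ⧸ U), Fintype.card_pos, a, ha, ?_⟩
  funext ⟨g, h⟩
  -- sum the cocycle identity over the third variable
  have hsum : ∑ x : G ⧸ U, (ρ g (cbar h x) - cbar (g * h) x + cbar g (h • x) - c (g, h)) = 0 := by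
    refine Finset.sum_eq_zero fun x _ => ?_
    induction x using QuotientGroup.induction_on with
    | H j =>
      rw [MulAction.Quotient.smul_mk, hcbar, hcbar, hcbar, smul_eq_mul]
      have := congrFun hd (g, h, j)
      simpa using this
  have htrans : ∑ x : G ⧸ U, cbar g (h • x) = ∑ x : G ⧸ U, cbar g x :=
    Fintype.sum_equiv (MulAction.toPerm h) _ _ (fun x => rfl)
  simp only [Finset.sum_sub_distrib, Finset.sum_add_distrib, Finset.sum_const, Finset.card_univ,
    htrans, ← map_sum] at hsum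
  simp only [d12_apply, Pi.smul_apply]
  rw [sub_eq_zero] at hsum
  exact hsum

/-- level `H²` is a torsion group -/
theorem H2_torsion (x : H2 𝒰 ρ) : ∃ n : ℕ, 0 < n ∧ n • x = 0 := by
  obtain ⟨c, rfl⟩ := H2mk_surjective x
  obtain ⟨n, hn, h⟩ := exists_nsmul_mem_B2 c.2
  refine ⟨n, hn, ?_⟩
  rw [← map_nsmul, H2mk_eq_zero_iff]
  simpa using h

/-- **45b, abstract core, final form** (torsion hypotheses discharged). -/
theorem h3Van_of_formation' {p : ℕ} [hp : Fact p.Prime]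
    {E J C : Type*} [AddCommGroup E] [AddCommGroup J] [AddCommGroup C]
    (ρE : Representation ℤ G E) (ρJ : Representation ℤ G J) (ρC : Representation ℤ G C)
    (i : E →+ J) (π : J →+ C)
    (hiρ : ∀ g e, i (ρE g e) = ρJ g (i e)) (hπρ : ∀ g x, π (ρJ g x) = ρC g (π x))
    (hi : Function.Injective i) (hπ : Function.Surjective π) (hπi : ∀ e, π (i e) = 0)
    (hex : ∀ x, π x = 0 → x ∈ Set.range i)
    (hsmJ : IsSmoothRep 𝒰 ρJ)
    {W : Type*} [Fintype W] (w₀ : W) {T : Type*} [AddCommGroup T]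
    (invJ : W → (H2 𝒰 ρJ →+ T)) (invC : H2 𝒰 ρC →+ T)
    (hinj : ∀ (x : H2 𝒰 ρJ) (n : ℕ), (p ^ n) • x = 0 → (∀ w, invJ w x = 0) → x = 0)
    (hsurj : ∀ (t : W → T) (n : ℕ), (∀ w, (p ^ n) • t w = 0) →
      ∃ x : H2 𝒰 ρJ, (p ^ n) • x = 0 ∧ ∀ w, invJ w x = t w)
    (hTdiv : ∀ (t : T) (n : ℕ), (p ^ n) • t = 0 → ∃ t', p • t' = t ∧ (p ^ (n + 1)) • t' = 0)
    (hinjC : ∀ (y : H2 𝒰 ρC) (n : ℕ), (p ^ n) • y = 0 → invC y = 0 → y = 0)
    (hcompat : ∀ x : H2 𝒰 ρJ, invC (mapH2 𝒰 ρJ ρC π hπρ x) = ∑ w, invJ w x)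
    (hH1C : ∀ a : G → C, 𝒰.IsConst₁ a → d12 ρC a = 0 → ∃ γ : C, d01 ρC γ = a)
    (hH3J : H3Van 𝒰 ρJ) (hsmE : IsSmoothRep 𝒰 ρE)
    {k : Type*} [CommRing k] {A : Type*} [AddCommGroup A] [Module k A]
    (ρA : Representation k G A) (j : A →+ E) (hj : Function.Injective j)
    (hjρ : ∀ g a, j (ρA g a) = ρE g (j a)) (hpA : ∀ a : A, p • a = 0)
    (hjp : ∀ e : E, p • e = 0 → e ∈ Set.range j) (hdiv : ∀ e : E, ∃ e', p • e' = e) :
    H3Van 𝒰 ρA :=
  h3Van_of_formation 𝒰 ρE ρJ ρC i π hiρ hπρ hi hπ hπi hex hsmJ w₀ invJ invC H2_torsion H2_torsion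
    hinj hsurj hTdiv hinjC hcompat hH1C hH3J hsmE ρA j hj hjρ hpA hjp hdiv

end Fermat.Agent.S55.CDArith63
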