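/-
S55 / 45b-CD-ARITH (helper63), part 6: ADAPTER between the explicit level cohomology of
`CDArith63` (`Z2`, `B2`, `H2 𝒰 ρ` for a bare `Representation`) and helper15's `Profin15`
level cohomology (`𝒰.Z₂ M`, `𝒰.B₂ M`, `𝒰.H2 M`, `𝒰.H1 M` for `M : Rep k G`), and the formation
step restated for `Rep ℤ G`-modules with a `LevelStr.ShortExact` and invariant maps on `𝒰.H2`.

Over `ℤ` the module structure `M.hV2` of a `Rep ℤ G` is in general not definitionally the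
canonical `AddCommGroup.toIntModule`, which the `ℤ`-statements of `CDArith63`
(`H3TorsVan`, `H2DivBy`, ...) use; `canρ M` is the same action as a representation for the
canonical structure.  All comparison lemmas are stated for an arbitrary representation `ρ'` on the
carrier of `M` (any coefficient ring) acting as `M.ρ` does.
-/
import Fermat.Agent.S55.CDArith63.FormationP
import Fermat.Agent.S55.Profin15.Exact

set_option autoImplicit false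
set_option linter.unusedSectionVars false
set_option linter.unusedVariables false

universe u

open CategoryTheory groupCohomology

namespace Fermat.Agent.S55.CDArith63.Adapter

open Fermat.Agent.S55.Profin15 Fermat.Agent.S55.CDArith63

section Basic

variable {k G : Type u} [CommRing k] [Group G] (𝒰 : LevelStr G) (M : Rep k G)
  {k' : Type*} [CommRing k'] [Module k' M] (ρ' : Representation k' G M)
  (hρ : ∀ g x, ρ' g x = M.ρ g x)

include hρ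

theorem d01_eq (x : M) : d01 ρ' x = (d₀₁ M).hom x := by
  funext g
  simp [d₀₁_hom_apply, hρ]

theorem d12_eq (a : G → M) : d12 ρ' a = (d₁₂ M).hom a := by
  funext ⟨g, h⟩
  simp [d₁₂_hom_apply, hρ]

theorem d23_eq (b : G × G → M) : d23 ρ' b = (d₂₃ M).hom b := by
  funext ⟨g, h, j⟩
  simp [d₂₃_hom_apply, hρ]

theorem mem_Z2_iff_mem_Z₂ (f : G × G → M) : f ∈ Z2 𝒰 ρ' ↔ f ∈ 𝒰.Z₂ M := by
  rw [mem_Z2_iff, LevelStr.mem_Z₂_iff, d23_eq M ρ' hρ]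
  constructor
  · rintro ⟨h1, h2⟩
    exact ⟨LinearMap.mem_ker.2 h2, h1⟩
  · rintro ⟨h1, h2⟩
    exact ⟨h2, LinearMap.mem_ker.1 h1⟩

theorem mem_B2_iff_mem_B₂ (f : G × G → M) : f ∈ B2 𝒰 ρ' ↔ f ∈ 𝒰.B₂ M := by
  rw [mem_B2_iff, LevelStr.mem_B₂_iff]
  constructor
  · rintro ⟨a, ha, rfl⟩
    exact ⟨a, ha, (d12_eq M ρ' hρ a).symm⟩
  · rintro ⟨a, ha, rfl⟩
    exact ⟨a, ha, d12_eq M ρ' hρ a⟩

theorem mem_Z₁_iff (a : G → M) : a ∈ 𝒰.Z₁ M ↔ 𝒰.IsConst₁ a ∧ d12 ρ' a = 0 := by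
  rw [LevelStr.mem_Z₁_iff, d12_eq M ρ' hρ]
  constructor
  · rintro ⟨h1, h2⟩
    exact ⟨h2, LinearMap.mem_ker.1 h1⟩
  · rintro ⟨h1, h2⟩
    exact ⟨LinearMap.mem_ker.2 h2, h1⟩

theorem mem_coboundaries₁_iff (a : G → M) : a ∈ coboundaries₁ M ↔ ∃ γ : M, d01 ρ' γ = a := by
  constructor
  · rintro ⟨γ, rfl⟩
    exact ⟨γ, d01_eq M ρ' hρ γ⟩
  · rintro ⟨γ, rfl⟩
    exact ⟨γ, (d01_eq M ρ' hρ γ).symm⟩

theorem isSmoothRep_iff : IsSmoothRep 𝒰 ρ' ↔ 𝒰.IsSmooth M := by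
  constructor
  · intro h m
    obtain ⟨U, hU, hfix⟩ := h m
    exact ⟨U, hU, fun s hs => by rw [← hρ]; exact hfix s hs⟩
  · intro h m
    obtain ⟨U, hU, hfix⟩ := h m
    exact ⟨U, hU, fun s hs => by rw [hρ]; exact hfix s hs⟩

/-- cocycles: `CDArith63` to `Profin15` -/
def toZ₂ : ↥(Z2 𝒰 ρ') →+ ↥(𝒰.Z₂ M) where
  toFun c := ⟨c.1, (mem_Z2_iff_mem_Z₂ 𝒰 M ρ' hρ c.1).1 c.2⟩
  map_zero' := rfl
  map_add' _ _ := rfl

@[simp] theorem coe_toZ₂ (c : ↥(Z2 𝒰 ρ')) :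
    ((toZ₂ 𝒰 M ρ' hρ c : ↥(𝒰.Z₂ M)) : G × G → M) = c.1 := rfl

/-- the comparison map `CDArith63.H2 𝒰 ρ' → 𝒰.H2 M` -/
def toH2 : H2 𝒰 ρ' →+ 𝒰.H2 M :=
  QuotientAddGroup.lift _ ((𝒰.H2π M).toAddMonoidHom.comp (toZ₂ 𝒰 M ρ' hρ)) (by
    intro c hc
    rw [AddSubgroup.mem_addSubgroupOf] at hc
    show 𝒰.H2π M (toZ₂ 𝒰 M ρ' hρ c) = 0
    rw [LevelStr.H2π_eq_zero_iff]
    exact (mem_B2_iff_mem_B₂ 𝒰 M ρ' hρ _).1 hc)

@[simp] theorem toH2_mk (c : ↥(Z2 𝒰 ρ')) :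
    toH2 𝒰 M ρ' hρ (H2mk 𝒰 ρ' c) = 𝒰.H2π M (toZ₂ 𝒰 M ρ' hρ c) := rfl

theorem toH2_injective : Function.Injective (toH2 𝒰 M ρ' hρ) := by
  rw [injective_iff_map_eq_zero]
  intro x hx
  obtain ⟨c, rfl⟩ := H2mk_surjective x
  rw [toH2_mk, LevelStr.H2π_eq_zero_iff] at hx
  rw [H2mk_eq_zero_iff]
  exact (mem_B2_iff_mem_B₂ 𝒰 M ρ' hρ _).2 hx

theorem toH2_surjective : Function.Surjective (toH2 𝒰 M ρ' hρ) := by
  intro y
  obtain ⟨c, rfl⟩ := Submodule.Quotient.mk_surjective _ y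
  exact ⟨H2mk 𝒰 ρ' ⟨c.1, (mem_Z2_iff_mem_Z₂ 𝒰 M ρ' hρ c.1).2 c.2⟩, rfl⟩

/-- **the comparison isomorphism** `CDArith63.H2 𝒰 ρ' ≃+ 𝒰.H2 M` -/
noncomputable def H2equiv : H2 𝒰 ρ' ≃+ 𝒰.H2 M :=
  AddEquiv.ofBijective (toH2 𝒰 M ρ' hρ) ⟨toH2_injective 𝒰 M ρ' hρ, toH2_surjective 𝒰 M ρ' hρ⟩

@[simp] theorem H2equiv_apply (x : H2 𝒰 ρ') : H2equiv 𝒰 M ρ' hρ x = toH2 𝒰 M ρ' hρ x := rfl

end Basic

section Natural

variable {k G : Type u} [CommRing k] [Group G] (𝒰 : LevelStr G) {A B : Rep k G}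
  {k' : Type*} [CommRing k'] [Module k' A] [Module k' B]
  (ρA : Representation k' G A) (hρA : ∀ g x, ρA g x = A.ρ g x)
  (ρB : Representation k' G B) (hρB : ∀ g x, ρB g x = B.ρ g x)
  (φ : A →ₗ[k] B) (hφ : LevelStr.IsEquivariant φ)

include hρA hρB hφ in
theorem equivariant' (g : G) (a : A) : φ.toAddMonoidHom (ρA g a) = ρB g (φ.toAddMonoidHom a) := by
  rw [hρA, hρB]
  exact hφ g a

/-- naturality of the comparison map: `mapH2` corresponds to `H2map` -/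
theorem toH2_mapH2 (x : H2 𝒰 ρA) :
    toH2 𝒰 B ρB hρB (mapH2 𝒰 ρA ρB φ.toAddMonoidHom (equivariant' ρA hρA ρB hρB φ hφ) x) =
      𝒰.H2map φ hφ (toH2 𝒰 A ρA hρA x) := by
  obtain ⟨c, rfl⟩ := H2mk_surjective x
  rw [mapH2_mk, toH2_mk, toH2_mk, LevelStr.H2map_H2π]
  rfl

end Natural

/-! ### the canonical `ℤ`-structure representation of a `Rep k G` -/

section Int

variable {k G : Type u} [CommRing k] [Group G] (M : Rep k G)

/-- the action of `M : Rep k G` as a `ℤ`-representation for the canonical `ℤ`-module structure of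
the additive group `M` -/
def canρ : Representation ℤ G M where
  toFun g := (M.ρ g).toAddMonoidHom.toIntLinearMap
  map_one' := by
    ext x
    show M.ρ 1 x = x
    have h1 : M.ρ 1 = 1 := map_one _
    rw [h1]
    rfl
  map_mul' g h := by
    ext x
    show M.ρ (g * h) x = M.ρ g (M.ρ h x)
    have h1 : M.ρ (g * h) = M.ρ g * M.ρ h := map_mul _ _ _
    rw [h1]
    rfl

@[simp] theorem canρ_apply (g : G) (x : M) : canρ M g x = M.ρ g x := rfl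

end Int

/-! ### the formation step for `Rep k G` (to be used with `k = ℤ`; stated for a general
coefficient ring so that no `ℤ`-module instance is ever synthesised on a `Rep`) -/

section Formation

variable {k G : Type u} [CommRing k] [Group G] (𝒰 : LevelStr G) {p : ℕ} [hp : Fact p.Prime]
  {E J C : Rep k G} (φ : E →ₗ[k] J) (ψ : J →ₗ[k] C)
  (h : LevelStr.ShortExact φ ψ)
  (hJ : 𝒰.IsSmooth J)
  {W : Type*} [Fintype W] (w₀ : W) {T : Type*} [AddCommGroup T]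
  (invJ : W → (𝒰.H2 J →+ T)) (invC : 𝒰.H2 C →+ T)
  (hinj : ∀ (x : 𝒰.H2 J) (n : ℕ), (p ^ n) • x = 0 → (∀ w, invJ w x = 0) → x = 0)
  (hsurj : ∀ (t : W → T) (n : ℕ), (∀ w, (p ^ n) • t w = 0) →
    ∃ x : 𝒰.H2 J, (p ^ n) • x = 0 ∧ ∀ w, invJ w x = t w)
  (hTdiv : ∀ (t : T) (n : ℕ), (p ^ n) • t = 0 → ∃ t', p • t' = t ∧ (p ^ (n + 1)) • t' = 0)
  (hinjC : ∀ (y : 𝒰.H2 C) (n : ℕ), (p ^ n) • y = 0 → invC y = 0 → y = 0)
  (hcompat : ∀ x : 𝒰.H2 J, invC (𝒰.H2map ψ h.equivariant_right x) = ∑ w, invJ w x)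
  (hH1C : ∀ (y : 𝒰.H1 C) (n : ℕ), (p ^ n) • y = 0 → y = 0)
  (hH3J : H3TorsVan 𝒰 p (canρ J))

include h hJ w₀ hinj hsurj hTdiv hinjC hcompat hH1C hH3J in
/-- **the formation step in `Profin15` vocabulary**: for a short exact sequence
`0 → E → J → C → 0` of `Rep k G` (`J` smooth) with invariant maps on `𝒰.H2 J`, `𝒰.H2 C`
(jointly bijective resp. injective on `p`-primary parts, compatible), `p`-primary part of
`𝒰.H1 C` zero and `H³(J)[p] = 0`: both inputs of the Kummer step hold for `E`. -/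
theorem formation_rep : H3TorsVan 𝒰 p (canρ E) ∧ H2DivBy 𝒰 p (canρ E) := by
  have hE0 : ∀ g x, canρ E g x = E.ρ g x := fun _ _ => rfl
  have hJ0 : ∀ g x, canρ J g x = J.ρ g x := fun _ _ => rfl
  have hC0 : ∀ g x, canρ C g x = C.ρ g x := fun _ _ => rfl
  have hiρ := equivariant' (canρ E) hE0 (canρ J) hJ0 φ h.equivariant_left
  have hπρ := equivariant' (canρ J) hJ0 (canρ C) hC0 ψ h.equivariant_right
  have hπi : ∀ e, ψ.toAddMonoidHom (φ.toAddMonoidHom e) = 0 := fun e => h.comp_eq_zero e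
  have hex : ∀ x, ψ.toAddMonoidHom x = 0 → x ∈ Set.range φ.toAddMonoidHom :=
    fun x hx => (h.exact x).1 hx
  have hsmJ : IsSmoothRep 𝒰 (canρ J) := (isSmoothRep_iff 𝒰 J (canρ J) hJ0).2 hJ
  have hinj' : ∀ (x : H2 𝒰 (canρ J)) (n : ℕ), (p ^ n) • x = 0 →
      (∀ w, ((invJ w).comp (toH2 𝒰 J (canρ J) hJ0)) x = 0) → x = 0 := by
    intro x n hx hw
    apply toH2_injective 𝒰 J (canρ J) hJ0
    rw [map_zero]
    exact hinj _ n (by rw [← map_nsmul, hx, map_zero]) hw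
  have hsurj' : ∀ (t : W → T) (n : ℕ), (∀ w, (p ^ n) • t w = 0) →
      ∃ x : H2 𝒰 (canρ J), (p ^ n) • x = 0 ∧
        ∀ w, ((invJ w).comp (toH2 𝒰 J (canρ J) hJ0)) x = t w := by
    intro t n ht
    obtain ⟨y, hy, hyw⟩ := hsurj t n ht
    obtain ⟨x, rfl⟩ := toH2_surjective 𝒰 J (canρ J) hJ0 y
    refine ⟨x, toH2_injective 𝒰 J (canρ J) hJ0 ?_, hyw⟩
    rw [map_nsmul, hy, map_zero]
  have hinjC' : ∀ (y : H2 𝒰 (canρ C)) (n : ℕ), (p ^ n) • y = 0 →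
      (invC.comp (toH2 𝒰 C (canρ C) hC0)) y = 0 → y = 0 := by
    intro y n hy h0
    apply toH2_injective 𝒰 C (canρ C) hC0
    rw [map_zero]
    exact hinjC _ n (by rw [← map_nsmul, hy, map_zero]) h0
  have hcompat' : ∀ x : H2 𝒰 (canρ J),
      (invC.comp (toH2 𝒰 C (canρ C) hC0))
        (mapH2 𝒰 (canρ J) (canρ C) ψ.toAddMonoidHom hπρ x) =
        ∑ w, ((invJ w).comp (toH2 𝒰 J (canρ J) hJ0)) x := by
    intro x
    have := toH2_mapH2 𝒰 (canρ J) hJ0 (canρ C) hC0 ψ h.equivariant_right x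
    simp only [AddMonoidHom.comp_apply]
    rw [this, hcompat]
  have hH1Cp : ∀ a : G → C, 𝒰.IsConst₁ a → d12 (canρ C) a = 0 →
      (∃ (n : ℕ) (γ : C), d01 (canρ C) γ = (p ^ n) • a) → ∃ γ : C, d01 (canρ C) γ = a := by
    intro a ha hda ⟨n, γ, hγ⟩
    have haZ : a ∈ 𝒰.Z₁ C := (mem_Z₁_iff 𝒰 C (canρ C) hC0 a).2 ⟨ha, hda⟩
    have h0 : (p ^ n) • 𝒰.H1π C ⟨a, haZ⟩ = 0 := by
      rw [← map_nsmul, LevelStr.H1π_eq_zero_iff]
      exact (mem_coboundaries₁_iff C (canρ C) hC0 _).2 ⟨γ, hγ⟩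
    have h1 := hH1C _ n h0
    rw [LevelStr.H1π_eq_zero_iff] at h1
    exact (mem_coboundaries₁_iff C (canρ C) hC0 a).1 h1
  exact ⟨h3TorsVan_of_formation_p 𝒰 (canρ E) (canρ J) (canρ C) φ.toAddMonoidHom
      ψ.toAddMonoidHom hiρ hπρ h.injective h.surjective hπi hex hsmJ w₀
      (fun w => (invJ w).comp (toH2 𝒰 J (canρ J) hJ0)) (invC.comp (toH2 𝒰 C (canρ C) hC0))
      hsurj' hinjC' hcompat' hH3J,
    h2DivBy_of_formation_p 𝒰 (canρ E) (canρ J) (canρ C) φ.toAddMonoidHom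
      ψ.toAddMonoidHom hiρ hπρ h.injective h.surjective hπi hex hsmJ w₀
      (fun w => (invJ w).comp (toH2 𝒰 J (canρ J) hJ0)) (invC.comp (toH2 𝒰 C (canρ C) hC0))
      hinj' hsurj' hTdiv hinjC' hcompat' hH1Cp⟩

end Formation

end Fermat.Agent.S55.CDArith63.Adapter
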