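/-
S55 / 45b-CD-ARITH (helper63), part 5: the LOCAL case (`E = K̄ˣ`) and the bridge to helper3's
`CD3.H3Vanishes`.

If level `H²(E)` carries an invariant map `inv : H²(E) → T` which is injective on the `p`-primary
part and hits every `p`-primary element of `T`, and `T` is `p`-divisible on `p`-primary elements
(`T = ℚ/ℤ`), then `H²(E)/p = 0` (`H2DivBy`).  With `H³(E)[p] = 0` (Tate: `H³(L/K, Lˣ) = 0`) and the
Kummer step this gives `H3Van 𝒰 (E[p])`.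
-/
import Fermat.Agent.S55.CDArith63.Torsion
import Fermat.Agent.S55.CD3.Cochain

set_option autoImplicit false
set_option linter.unusedSectionVars false
set_option linter.unusedVariables false

universe u

namespace Fermat.Agent.S55.CDArith63

open Fermat.Agent.S55.Profin15

/-! ### bridge to `CD3` -/

section Bridge

variable {G : Type u} [Group G] (𝒰 : LevelStr G) {k : Type*} [CommRing k] {A : Type*}
  [AddCommGroup A] [Module k A] (ρ : Representation k G A)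

theorem d23_eq_CD3 (b : G × G → A) : d23 ρ b = CD3.d23 ρ b := rfl

theorem d34_eq_CD3 (f : G × G × G → A) : d34 ρ f = CD3.d34 ρ f := rfl

/-- `H3Van` is helper3's `CD3.H3Vanishes`. -/
theorem h3Van_iff_H3Vanishes : H3Van 𝒰 ρ ↔ CD3.H3Vanishes 𝒰 ρ := Iff.rfl

theorem isSmoothRep_iff_CD3 : IsSmoothRep 𝒰 ρ ↔ CD3.IsSmoothRep 𝒰 ρ := Iff.rfl

end Bridge

/-! ### pure algebra: divisibility from one invariant map -/

section Alg

variable {p : ℕ} [hp : Fact p.Prime] {X T : Type*} [AddCommGroup X] [AddCommGroup T]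
  (inv : X →+ T)

theorem exists_div_of_inv
    (htors : ∀ x : X, ∃ n : ℕ, 0 < n ∧ n • x = 0)
    (hinj : ∀ (x : X) (n : ℕ), (p ^ n) • x = 0 → inv x = 0 → x = 0)
    (hsurj : ∀ (t : T) (n : ℕ), (p ^ n) • t = 0 → ∃ x : X, (p ^ n) • x = 0 ∧ inv x = t)
    (hTdiv : ∀ (t : T) (n : ℕ), (p ^ n) • t = 0 → ∃ t', p • t' = t ∧ (p ^ (n + 1)) • t' = 0)
    (x : X) : ∃ z : X, p • z = x := by
  obtain ⟨n, hn0, hn⟩ := htors x
  obtain ⟨a, m, hm, rfl⟩ := Nat.exists_eq_pow_mul_and_not_dvd hn0.ne' p hp.out.ne_one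
  have hcop : Nat.Coprime p m := (Nat.Prime.coprime_iff_not_dvd hp.out).2 hm
  have hcop' : Nat.Coprime (p ^ a) m := Nat.Coprime.pow_left a hcop
  have hb1 : ((p ^ a : ℕ) : ℤ) * Int.gcdA (p ^ a : ℕ) m + (m : ℤ) * Int.gcdB (p ^ a : ℕ) m = 1 := by
    have := Int.gcd_eq_gcd_ab ((p ^ a : ℕ) : ℤ) (m : ℤ)
    rw [Int.gcd_natCast_natCast, hcop'] at this
    exact_mod_cast this.symm
  set v := Int.gcdA (p ^ a : ℕ) m
  set u := Int.gcdB (p ^ a : ℕ) m
  have hb2 : ((p : ℕ) : ℤ) * Int.gcdA p m + (m : ℤ) * Int.gcdB p m = 1 := by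
    have := Int.gcd_eq_gcd_ab ((p : ℕ) : ℤ) (m : ℤ)
    rw [Int.gcd_natCast_natCast, hcop] at this
    exact_mod_cast this.symm
  set s := Int.gcdA p m
  set t' := Int.gcdB p m
  have hnx : (((p ^ a : ℕ) : ℤ) * (m : ℤ)) • x = 0 := by
    have : (((p ^ a : ℕ) : ℤ) * (m : ℤ)) • x = ((p ^ a * m : ℕ) : ℤ) • x := by push_cast; rfl
    rw [this, natCast_zsmul, hn]
  set xp : X := ((m : ℤ) * u) • x with hxp
  set xq : X := (((p ^ a : ℕ) : ℤ) * v) • x with hxq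
  have hsum : xp + xq = x := by
    rw [hxp, hxq, ← add_smul]
    have : (m : ℤ) * u + ((p ^ a : ℕ) : ℤ) * v = 1 := by linarith
    rw [this, one_smul]
  have hxp_pow : (p ^ a) • xp = 0 := by
    rw [hxp, ← natCast_zsmul, smul_smul]
    have : ((p ^ a : ℕ) : ℤ) * ((m : ℤ) * u) = u * (((p ^ a : ℕ) : ℤ) * (m : ℤ)) := by ring
    rw [this, mul_smul, hnx, smul_zero]
  have hxq_m : (m : ℤ) • xq = 0 := by
    rw [hxq, smul_smul]
    have : (m : ℤ) * (((p ^ a : ℕ) : ℤ) * v) = v * (((p ^ a : ℕ) : ℤ) * (m : ℤ)) := by ring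
    rw [this, mul_smul, hnx, smul_zero]
  set zq : X := s • xq with hzq
  have hzq1 : p • zq = xq := by
    rw [hzq, ← natCast_zsmul, smul_smul]
    have : ((p : ℕ) : ℤ) * s = 1 - (m : ℤ) * t' := by linarith
    rw [this, sub_smul, one_smul, mul_comm, mul_smul, hxq_m, smul_zero, sub_zero]
  -- p-primary part
  have hinvp : (p ^ a) • inv xp = 0 := by rw [← map_nsmul, hxp_pow, map_zero]
  obtain ⟨tz, htz1, htz2⟩ := hTdiv (inv xp) a hinvp
  obtain ⟨zp, hzp1, hzp2⟩ := hsurj tz (a + 1) htz2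
  have hzp3 : p • zp = xp := by
    have h1 : (p ^ (a + 1)) • (p • zp - xp) = 0 := by
      rw [smul_sub, smul_comm, hzp1, smul_zero, pow_succ, mul_comm, mul_smul, hxp_pow, smul_zero,
        sub_zero]
    have h2 : inv (p • zp - xp) = 0 := by
      rw [map_sub, map_nsmul, hzp2, htz1, sub_self]
    exact sub_eq_zero.1 (hinj _ _ h1 h2)
  exact ⟨zp + zq, by rw [smul_add, hzp3, hzq1, hsum]⟩

end Alg

/-! ### the local case -/

section Local

variable {G : Type u} [Group G] {𝒰 : LevelStr G} {p : ℕ} [hp : Fact p.Prime]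
  {E : Type*} [AddCommGroup E] (ρE : Representation ℤ G E)
  {T : Type*} [AddCommGroup T] (inv : H2 𝒰 ρE →+ T)

/-- `H²(E)/p = 0` from an invariant map -/
theorem h2DivBy_of_inv
    (hinj : ∀ (x : H2 𝒰 ρE) (n : ℕ), (p ^ n) • x = 0 → inv x = 0 → x = 0)
    (hsurj : ∀ (t : T) (n : ℕ), (p ^ n) • t = 0 → ∃ x : H2 𝒰 ρE, (p ^ n) • x = 0 ∧ inv x = t)
    (hTdiv : ∀ (t : T) (n : ℕ), (p ^ n) • t = 0 → ∃ t', p • t' = t ∧ (p ^ (n + 1)) • t' = 0) :
    H2DivBy 𝒰 p ρE := by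
  intro c hc hdc
  obtain ⟨z, hz⟩ := exists_div_of_inv (p := p) inv H2_torsion hinj hsurj hTdiv
    (H2mk 𝒰 ρE ⟨c, hc, hdc⟩)
  obtain ⟨c', rfl⟩ := H2mk_surjective z
  have h0 : H2mk 𝒰 ρE (⟨c, hc, hdc⟩ - p • c') = 0 := by
    rw [map_sub, map_nsmul, hz, sub_self]
  have hB := (H2mk_eq_zero_iff _).1 h0
  obtain ⟨a, ha, hda⟩ := hB
  refine ⟨c', a, c'.2.1, c'.2.2, ha, ?_⟩
  rw [hda]
  simp

/-- **45b, LOCAL form.** `E` smooth, `p`-divisible, `E[p] = j(A)`, `H³(E)[p] = 0`, and an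
invariant map on level `H²(E)`: then level `H³(A) = 0`. -/
theorem h3Van_of_local (hsmE : IsSmoothRep 𝒰 ρE)
    (hinj : ∀ (x : H2 𝒰 ρE) (n : ℕ), (p ^ n) • x = 0 → inv x = 0 → x = 0)
    (hsurj : ∀ (t : T) (n : ℕ), (p ^ n) • t = 0 → ∃ x : H2 𝒰 ρE, (p ^ n) • x = 0 ∧ inv x = t)
    (hTdiv : ∀ (t : T) (n : ℕ), (p ^ n) • t = 0 → ∃ t', p • t' = t ∧ (p ^ (n + 1)) • t' = 0)
    (h3 : H3TorsVan 𝒰 p ρE)
    {k : Type*} [CommRing k] {A : Type*} [AddCommGroup A] [Module k A]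
    (ρA : Representation k G A) (j : A →+ E) (hj : Function.Injective j)
    (hjρ : ∀ g a, j (ρA g a) = ρE g (j a)) (hpA : ∀ a : A, p • a = 0)
    (hjp : ∀ e : E, p • e = 0 → e ∈ Set.range j) (hdiv : ∀ e : E, ∃ e', p • e' = e) :
    CD3.H3Vanishes 𝒰 ρA :=
  h3Van_of_kummer p ρE hsmE ρA j hj hjρ hpA hjp hdiv h3
    (h2DivBy_of_inv ρE inv hinj hsurj hTdiv)

end Local

end Fermat.Agent.S55.CDArith63
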