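/-
S55 leaf 45b-GLOBAL-TOP (helper63): the part of the global `cd_p ≤ 2` pipeline that sits above
the class formation.  From the two named statements on `E_S = ESRep S` restricted to the open
subgroups `V` of `G_ℚ` which fix `μ_p`
  * `H3TorsVan` (level `H³(V, E_S)` kills `p`-torsion valued cocycles),
  * `H2DivBy`   (level `H²(V, E_S)` is `p`-divisible),
we get `CD3.H3Vanishes (globalLevels S) ρ` for every finite smooth `𝔽_p[G_ℚ]`-module:
Kummer step (`CDArith63.h3Van_of_kummer`, with helper20's `jmu`) over each such `V`, cofinality of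
the `μ_p`-trivial open subgroups (index dividing `p - 1`), and helper3's dévissage
`CD3.h3Vanishes_of_trivial_cofinal`.
-/
import Fermat.Agent.S55.CDArith63.Kummer
import Fermat.Agent.S55.CDArith63.Local
import Fermat.Agent.S55.CD3.Devissage
import Fermat.Agent.S55.ESKummer20

set_option autoImplicit false
set_option linter.style.haveILetI false

open ExtCitation
open Fermat.Agent.S55.Profin15 Fermat.Agent.S55.CD3
open Fermat.Agent.S55.ESDiv20 Fermat.Agent.S55.ESRep20 Fermat.Agent.S55.ESKummer20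

namespace Fermat.Agent.S55.CDArith63.Global

variable (p : ℕ) [Fact p.Prime] (S : Finset Nat.Primes)

/-- `μ_p` lies in the fixed field of `V`. -/
def MuTriv (V : Subgroup GQ) : Prop := ∀ σ ∈ V, cycloChar p σ = 1

variable {p S}

lemma MuTriv.mono {V V' : Subgroup GQ} (h : MuTriv p V) (hle : V' ≤ V) : MuTriv p V' :=
  fun σ hσ => h σ (hle hσ)

/-- there is an `S`-level fixing `μ_p` (`p ∈ S`) -/
theorem exists_level_muTriv (hpS : pPrime p ∈ S) :
    ∃ U ∈ (globalLevels S).levels, MuTriv p U := by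
  obtain ⟨ζ, hζ⟩ := exists_primitiveRoot p
  obtain ⟨U, hU, hfix⟩ := ESRep_isSmooth S (jmu (S := S) hpS ζ hζ.pow_eq_one 1)
  refine ⟨U, hU, fun σ hσ => ?_⟩
  have h1 := jmu_equivariant (S := S) hpS ζ hζ.pow_eq_one σ 1
  rw [hfix σ hσ] at h1
  have h2 := jmu_injective (S := S) hpS hζ h1
  rw [mul_one] at h2
  exact Units.ext h2

/-- the `μ_p`-trivial open subgroups are cofinal with index prime to `p`:
this is `hcof` of `CD3.h3Vanishes_of_trivial_cofinal`. -/
theorem exists_muTriv_le (hpS : pPrime p ∈ S) (V : Subgroup GQ)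
    (hV : IsOpenSub (globalLevels S) V) :
    ∃ V' ∈ {W : Subgroup GQ | MuTriv p W}, V' ≤ V ∧ IsOpenSub (globalLevels S) V' ∧
      ¬ p ∣ V'.relIndex V := by
  obtain ⟨U₀, hU₀, hle₀⟩ := hV
  obtain ⟨U₁, hU₁, hmu₁⟩ := exists_level_muTriv (p := p) hpS
  obtain ⟨U₂, hU₂, hle₂⟩ := (globalLevels S).directed U₀ hU₀ U₁ hU₁
  refine ⟨V ⊓ (cycloChar p).ker, ?_, inf_le_left, ⟨U₂, hU₂, ?_⟩, ?_⟩
  · intro σ hσ
    exact (MonoidHom.mem_ker).1 hσ.2
  · intro σ hσ
    exact ⟨hle₀ (hle₂ hσ).1, (MonoidHom.mem_ker).2 (hmu₁ σ (hle₂ hσ).2)⟩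
  · rw [Subgroup.inf_relIndex_left, Subgroup.relIndex_ker]
    intro hdvd
    have h1 : Nat.card (V.map (cycloChar p)) ∣ Nat.card (ZMod p)ˣ :=
      Subgroup.card_subgroup_dvd_card _
    have h2 : Nat.card (ZMod p)ˣ = p - 1 := by
      rw [Nat.card_eq_fintype_card, ZMod.card_units]
    rw [h2] at h1
    have hp : p.Prime := Fact.out
    have h3 : p ∣ p - 1 := hdvd.trans h1
    have h4 : p ≤ p - 1 := Nat.le_of_dvd (Nat.sub_pos_of_lt hp.one_lt) h3
    have h5 : 1 < p := hp.one_lt
    omega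

/-- **Kummer step over an open subgroup fixing `μ_p`**: `hbase` of helper3's dévissage from the
two statements on `E_S` restricted to `V`. -/
theorem hbase_of_ES (hpS : pPrime p ∈ S) (V : Subgroup GQ) (hV : IsOpenSub (globalLevels S) V)
    (hmu : MuTriv p V)
    (h3 : H3TorsVan (restrictLevels (globalLevels S) V hV) p (resSub (ESRep S).ρ V))
    (h2 : H2DivBy (restrictLevels (globalLevels S) V hV) p (resSub (ESRep S).ρ V)) :
    CD3.H3Vanishes (restrictLevels (globalLevels S) V hV)
      (Representation.trivial (ZMod p) ↥V (ZMod p)) := by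
  obtain ⟨ζ, hζ⟩ := exists_primitiveRoot p
  have hsm : IsSmoothRep (restrictLevels (globalLevels S) V hV) (resSub (ESRep S).ρ V) :=
    CD3.IsSmoothRep.resSub (ESRep_isSmooth S) V hV
  refine h3Van_of_kummer p (resSub (ESRep S).ρ V) hsm
    (Representation.trivial (ZMod p) ↥V (ZMod p)) (jmu (S := S) hpS ζ hζ.pow_eq_one)
    (jmu_injective hpS hζ) ?_ nsmul_zmod_eq_zero (mem_range_jmu hpS hζ) (ESRep_divisible hpS)
    h3 h2
  intro g a
  have h1 := jmu_equivariant (S := S) hpS ζ hζ.pow_eq_one (g : GQ) a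
  rw [hmu (g : GQ) g.2, Units.val_one, one_mul] at h1
  rw [Representation.isTrivial_def, LinearMap.id_apply]
  exact h1

/-- **Global `cd_p ≤ 2` on level cochains from the two named statements on `E_S`.** -/
theorem h3Vanishes_global (hpS : pPrime p ∈ S)
    (hES : ∀ (V : Subgroup GQ) (hV : IsOpenSub (globalLevels S) V), MuTriv p V →
      H3TorsVan (restrictLevels (globalLevels S) V hV) p (resSub (ESRep S).ρ V) ∧
      H2DivBy (restrictLevels (globalLevels S) V hV) p (resSub (ESRep S).ρ V))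
    {A : Type*} [AddCommGroup A] [Module (ZMod p) A] [Finite A]
    (ρ : Representation (ZMod p) GQ A) (hsm : CD3.IsSmoothRep (globalLevels S) ρ) :
    CD3.H3Vanishes (globalLevels S) ρ :=
  h3Vanishes_of_trivial_cofinal p {W : Subgroup GQ | MuTriv p W}
    (fun V hV => exists_muTriv_le hpS V hV)
    (fun V hmu hV => hbase_of_ES hpS V hV hmu (hES V hV hmu).1 (hES V hV hmu).2) ρ hsm

end Fermat.Agent.S55.CDArith63.Global
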