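/-
S55 / 45b-CD-ARITH (helper63), part 7: the formation step over an OPEN SUBGROUP `V`, in
`Profin15` vocabulary (`restrictLevels 𝒰 V hV`, `Rep.res V.subtype`, `LevelStr.ShortExact`,
invariant maps on `(restrictLevels 𝒰 V hV).H2 (Rep.res V.subtype ·)`), and its specialisation to
`E = ESRep S` ending literally in the binder `hES` of `Global.h3Vanishes_global`.
-/
import Fermat.Agent.S55.CDArith63.Adapter
import Fermat.Agent.S55.CDArith63.Global
import Fermat.Agent.S55.Profin15.LESNat

set_option autoImplicit false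
set_option linter.unusedSectionVars false
set_option linter.unusedVariables false

universe u

open CategoryTheory groupCohomology ExtCitation

namespace Fermat.Agent.S55.CDArith63.GlobalForm

open Fermat.Agent.S55.Profin15 Fermat.Agent.S55.CD3 Fermat.Agent.S55.CDArith63
open Fermat.Agent.S55.CDArith63.Adapter Fermat.Agent.S55.CDArith63.Global
open Fermat.Agent.S55.ESDiv20 Fermat.Agent.S55.ESRep20

section Res

variable {k G : Type u} [CommRing k] [Group G] (M : Rep k G) (V : Subgroup G)

/-- `canρ` commutes with restriction to a subgroup -/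
theorem canρ_res : canρ (Rep.res V.subtype M) = resSub (canρ M) V := rfl

theorem isSmooth_res {𝒰 : LevelStr G} (hM : 𝒰.IsSmooth M) (hV : IsOpenSub 𝒰 V) :
    (restrictLevels 𝒰 V hV).IsSmooth (Rep.res V.subtype M) := by
  intro m
  obtain ⟨U, hU, hfix⟩ := hM m
  obtain ⟨U₀, hU₀, hle₀⟩ := hV
  obtain ⟨W, hW, hle⟩ := 𝒰.directed U hU U₀ hU₀
  refine ⟨W.subgroupOf V, ⟨W, hW, (hle.trans inf_le_right).trans hle₀, rfl⟩, fun s hs => ?_⟩
  rw [Subgroup.mem_subgroupOf] at hs
  exact hfix _ (hle.trans inf_le_left hs)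

end Res

section FormationRes

variable {k G : Type u} [CommRing k] [Group G] (𝒰 : LevelStr G) (V : Subgroup G)
  (hV : IsOpenSub 𝒰 V) {p : ℕ} [hp : Fact p.Prime]
  {E J C : Rep k G} (φ : E →ₗ[k] J) (ψ : J →ₗ[k] C)
  (h : LevelStr.ShortExact φ ψ)
  (hJ : 𝒰.IsSmooth J)
  {W : Type*} [Fintype W] (w₀ : W) {T : Type*} [AddCommGroup T]
  (invJ : W → ((restrictLevels 𝒰 V hV).H2 (Rep.res V.subtype J) →+ T))
  (invC : (restrictLevels 𝒰 V hV).H2 (Rep.res V.subtype C) →+ T)
  (hinj : ∀ (x : (restrictLevels 𝒰 V hV).H2 (Rep.res V.subtype J)) (n : ℕ),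
    (p ^ n) • x = 0 → (∀ w, invJ w x = 0) → x = 0)
  (hsurj : ∀ (t : W → T) (n : ℕ), (∀ w, (p ^ n) • t w = 0) →
    ∃ x : (restrictLevels 𝒰 V hV).H2 (Rep.res V.subtype J),
      (p ^ n) • x = 0 ∧ ∀ w, invJ w x = t w)
  (hTdiv : ∀ (t : T) (n : ℕ), (p ^ n) • t = 0 → ∃ t', p • t' = t ∧ (p ^ (n + 1)) • t' = 0)
  (hinjC : ∀ (y : (restrictLevels 𝒰 V hV).H2 (Rep.res V.subtype C)) (n : ℕ),
    (p ^ n) • y = 0 → invC y = 0 → y = 0)
  (hcompat : ∀ x : (restrictLevels 𝒰 V hV).H2 (Rep.res V.subtype J),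
    invC ((restrictLevels 𝒰 V hV).H2map (LevelStr.resLin V.subtype ψ)
      (h.res V.subtype).equivariant_right x) = ∑ w, invJ w x)
  (hH1C : ∀ (y : (restrictLevels 𝒰 V hV).H1 (Rep.res V.subtype C)) (n : ℕ),
    (p ^ n) • y = 0 → y = 0)
  (hH3J : H3TorsVan (restrictLevels 𝒰 V hV) p (resSub (canρ J) V))

include h hJ w₀ hinj hsurj hTdiv hinjC hcompat hH1C hH3J in
/-- **the formation step over an open subgroup `V`.** -/
theorem formation_res :
    H3TorsVan (restrictLevels 𝒰 V hV) p (resSub (canρ E) V) ∧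
      H2DivBy (restrictLevels 𝒰 V hV) p (resSub (canρ E) V) :=
  formation_rep (restrictLevels 𝒰 V hV) (E := Rep.res V.subtype E) (J := Rep.res V.subtype J)
    (C := Rep.res V.subtype C) (LevelStr.resLin V.subtype φ) (LevelStr.resLin V.subtype ψ)
    (h.res V.subtype) (isSmooth_res J V hJ hV) w₀ invJ invC hinj hsurj hTdiv hinjC hcompat hH1C
    hH3J

end FormationRes

/-! ### `E = ESRep S`

For `E = ESRep S` the conclusion of `formation_res` (with `k := ℤ`) is literally the binder `hES`
of `Global.h3Vanishes_global`, because `canρ (ESRep S) = (ESRep S).ρ` by `rfl`.  We do not state a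
theorem with *variable* `J C : Rep ℤ G_ℚ` here: for a variable `Rep ℤ G` the module instance
`hV2` is not definitionally the canonical `ℤ`-structure and `φ.hom.toLinearMap` would not
elaborate.  Consumers apply `formation_res (k := ℤ)` to their concrete `J_S`, `C_S`; the
compile-tested pattern is `hES_pattern` below (with `J = C = ESRep S` as stand-ins). -/

section ES

variable {S : Finset Nat.Primes} {p : ℕ} [hp : Fact p.Prime]

/-- for `ESRep S` the module structure is the canonical one: `canρ` is `ρ` -/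
theorem canρ_ESRep : canρ (ESRep S) = (ESRep S).ρ := rfl

/-- consumer pattern (stand-ins `J = C = ESRep S`): the output of `formation_res` is accepted
where the binder `hES` of `Global.h3Vanishes_global` is expected. -/
theorem hES_pattern (V : Subgroup GQ) (hV : IsOpenSub (globalLevels S) V)
    (φ ψ : ESRep S ⟶ ESRep S)
    (h : LevelStr.ShortExact (A := ESRep S) (B := ESRep S) (C := ESRep S)
      φ.hom.toLinearMap ψ.hom.toLinearMap)
    {W : Type*} [Fintype W] (w₀ : W) {T : Type*} [AddCommGroup T]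
    (invJ : W → ((restrictLevels (globalLevels S) V hV).H2 (Rep.res V.subtype (ESRep S)) →+ T))
    (invC : (restrictLevels (globalLevels S) V hV).H2 (Rep.res V.subtype (ESRep S)) →+ T)
    (hinj : ∀ (x : (restrictLevels (globalLevels S) V hV).H2 (Rep.res V.subtype (ESRep S)))
      (n : ℕ), (p ^ n) • x = 0 → (∀ w, invJ w x = 0) → x = 0)
    (hsurj : ∀ (t : W → T) (n : ℕ), (∀ w, (p ^ n) • t w = 0) →
      ∃ x : (restrictLevels (globalLevels S) V hV).H2 (Rep.res V.subtype (ESRep S)),
        (p ^ n) • x = 0 ∧ ∀ w, invJ w x = t w)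
    (hTdiv : ∀ (t : T) (n : ℕ), (p ^ n) • t = 0 → ∃ t', p • t' = t ∧ (p ^ (n + 1)) • t' = 0)
    (hinjC : ∀ (y : (restrictLevels (globalLevels S) V hV).H2 (Rep.res V.subtype (ESRep S)))
      (n : ℕ), (p ^ n) • y = 0 → invC y = 0 → y = 0)
    (hcompat : ∀ x : (restrictLevels (globalLevels S) V hV).H2 (Rep.res V.subtype (ESRep S)),
      invC ((restrictLevels (globalLevels S) V hV).H2map
        (LevelStr.resLin V.subtype ψ.hom.toLinearMap)
        (h.res V.subtype).equivariant_right x) = ∑ w, invJ w x)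
    (hH1C : ∀ (y : (restrictLevels (globalLevels S) V hV).H1 (Rep.res V.subtype (ESRep S)))
      (n : ℕ), (p ^ n) • y = 0 → y = 0)
    (hH3J : H3TorsVan (restrictLevels (globalLevels S) V hV) p (resSub (ESRep S).ρ V)) :
    H3TorsVan (restrictLevels (globalLevels S) V hV) p (resSub (ESRep S).ρ V) ∧
      H2DivBy (restrictLevels (globalLevels S) V hV) p (resSub (ESRep S).ρ V) :=
  formation_res (k := ℤ) (globalLevels S) V hV (E := ESRep S) (J := ESRep S) (C := ESRep S)
    φ.hom.toLinearMap ψ.hom.toLinearMap h (ESRep_isSmooth S) w₀ invJ invC hinj hsurj hTdiv hinjC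
    hcompat hH1C hH3J

end ES

end Fermat.Agent.S55.CDArith63.GlobalForm
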