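/-
S55 / 45b-CD-ARITH (helper63), part 9: END-TO-END CHAIN FOR (P1).

`HasFormationDatum p S V hV` is the single `Prop` the limit step (L-b / L-d / 52 / 36) has to
deliver for every open subgroup `V ≤ G_ℚ` (w.r.t. the `S`-levels) fixing `μ_p`: invariant maps
with values in `QZ = ℚ/ℤ` on the level `H²` of `J_S` and `C'_S = J_S/E_S` restricted to `V`
(helper94's `GlobalMod94.JS` objects), with the six properties consumed by
`GlobalForm.formation_res`.  From it: `CD3.GlobalH3Base p S` and the literal plug
`Contract34.GlobalRightExact p S`.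
-/
import Fermat.Agent.S55.CDArith63.GlobalForm
import Fermat.Agent.S55.CD3.P1
import Fermat.Agent.S55.GlobalMod94.JS
import Fermat.Agent.S55.QZ33

set_option autoImplicit false
set_option linter.unusedSectionVars false
set_option linter.unusedVariables false

open CategoryTheory groupCohomology ExtCitation

namespace Fermat.Agent.S55.CDArith63.P1Chain

open Fermat.Agent.S55.Profin15 Fermat.Agent.S55.CD3 Fermat.Agent.S55.CDArith63
open Fermat.Agent.S55.CDArith63.Adapter Fermat.Agent.S55.CDArith63.Global
open Fermat.Agent.S55.CDArith63.GlobalForm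
open Fermat.Agent.S55.ESDiv20 Fermat.Agent.S55.ESRep20 Fermat.Agent.S55.GlobalMod94.JS
open Fermat.Agent.S55.QZ33

variable (p : ℕ) [hp : Fact p.Prime] (S : Finset Nat.Primes)

/-- **THE LIMIT FORMATION DATUM at an open subgroup `V`** (the target of the limit step). -/
def HasFormationDatum (V : Subgroup GQ) (hV : IsOpenSub (globalLevels S) V) : Prop :=
  ∃ (W : Type) (_ : Fintype W) (_ : Nonempty W)
    (invJ : W → ((restrictLevels (globalLevels S) V hV).H2 (Rep.res V.subtype (JSp S)) →+ QZ))
    (invC : (restrictLevels (globalLevels S) V hV).H2 (Rep.res V.subtype (CSp S)) →+ QZ),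
    -- `H²(V, J_S)(p) → ⊕_w ℚ/ℤ` is injective ...
    (∀ (x : (restrictLevels (globalLevels S) V hV).H2 (Rep.res V.subtype (JSp S))) (n : ℕ),
      (p ^ n) • x = 0 → (∀ w, invJ w x = 0) → x = 0) ∧
    -- ... and onto the `p`-primary part
    (∀ (t : W → QZ) (n : ℕ), (∀ w, (p ^ n) • t w = 0) →
      ∃ x : (restrictLevels (globalLevels S) V hV).H2 (Rep.res V.subtype (JSp S)),
        (p ^ n) • x = 0 ∧ ∀ w, invJ w x = t w) ∧
    -- `inv_C` is injective on the `p`-primary part of `H²(V, C'_S)`
    (∀ (y : (restrictLevels (globalLevels S) V hV).H2 (Rep.res V.subtype (CSp S))) (n : ℕ),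
      (p ^ n) • y = 0 → invC y = 0 → y = 0) ∧
    -- `inv_C ∘ π_* = ∑_w inv_w`
    (∀ x : (restrictLevels (globalLevels S) V hV).H2 (Rep.res V.subtype (JSp S)),
      invC ((restrictLevels (globalLevels S) V hV).H2map
        (LevelStr.resLin V.subtype (πCS S).hom.toLinearMap)
        ((LevelStr.isEquivariant_hom (πCS S)).res V.subtype) x) = ∑ w, invJ w x) ∧
    -- the `p`-primary part of `H¹(V, C'_S)` vanishes
    (∀ (y : (restrictLevels (globalLevels S) V hV).H1 (Rep.res V.subtype (CSp S))) (n : ℕ),
      (p ^ n) • y = 0 → y = 0) ∧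
    -- `H³(V, J_S)[p] = 0` (cochain form)
    H3TorsVan (restrictLevels (globalLevels S) V hV) p (resSub (canρ (JSp S)) V)

variable {p S}

/-- the datum at `V` gives the two inputs of the Kummer step for `E_S` over `V` -/
theorem hES_of_datum (hS : S.Nonempty) (V : Subgroup GQ) (hV : IsOpenSub (globalLevels S) V)
    (h : HasFormationDatum p S V hV) :
    H3TorsVan (restrictLevels (globalLevels S) V hV) p (resSub (ESRep S).ρ V) ∧
      H2DivBy (restrictLevels (globalLevels S) V hV) p (resSub (ESRep S).ρ V) := by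
  obtain ⟨W, hW, ⟨w₀⟩, invJ, invC, hinj, hsurj, hinjC, hcompat, hH1C, hH3J⟩ := h
  exact formation_res (k := ℤ) (globalLevels S) V hV (E := ESRep S) (J := JSp S) (C := CSp S)
    (ιES S).hom.toLinearMap (πCS S).hom.toLinearMap (shortExact_ES_JS_CS S hS) (JSp_isSmooth S)
    w₀ invJ invC hinj hsurj (QZ.hTdiv p hp.out.ne_zero) hinjC hcompat hH1C hH3J

/-- **the arithmetic input of (P1)** from the limit formation datum -/
theorem globalH3Base_of_datum (hpS : pPrime p ∈ S)
    (h : ∀ (V : Subgroup GQ) (hV : IsOpenSub (globalLevels S) V), MuTriv p V →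
      HasFormationDatum p S V hV) :
    CD3.GlobalH3Base p S := fun V hV hmu =>
  hbase_of_ES hpS V hV hmu (hES_of_datum ⟨_, hpS⟩ V hV (h V hV hmu)).1
    (hES_of_datum ⟨_, hpS⟩ V hV (h V hV hmu)).2

/-- **(P1) `Contract34.GlobalRightExact p S`, literally, from the limit formation datum.** -/
theorem globalRightExact_of_datum (hpS : pPrime p ∈ S)
    (h : ∀ (V : Subgroup GQ) (hV : IsOpenSub (globalLevels S) V), MuTriv p V →
      HasFormationDatum p S V hV) :
    Contract34.GlobalRightExact p S :=
  CD3.globalRightExact_of_base hpS (globalH3Base_of_datum hpS h)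

end Fermat.Agent.S55.CDArith63.P1Chain
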