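/-
S55 / 45b-CD-ARITH (helper63), part 8: small bridges for the producers of the hypothesis
`hH3J : H3TorsVan (restrictLevels 𝒰 V hV) p (resSub (canρ J) V)` of `GlobalForm.formation_res`:
  * from helper3's `CD3.H3Vanishes` of `M.ρ` (e.g. the output of `CDKummer71.LevelBridge`) to
    `H3TorsVan` of `canρ M`, also over an open subgroup;
  * a finite product (`GlobalMod94.Generic.piObj`) has `H3TorsVan` as soon as every factor has.
-/
import Fermat.Agent.S55.CDArith63.GlobalForm
import Fermat.Agent.S55.GlobalMod94.Generic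

set_option autoImplicit false
set_option linter.unusedSectionVars false
set_option linter.unusedVariables false

universe u

open CategoryTheory

namespace Fermat.Agent.S55.CDArith63.Pieces

open Fermat.Agent.S55.Profin15 Fermat.Agent.S55.CD3 Fermat.Agent.S55.CDArith63
open Fermat.Agent.S55.CDArith63.Adapter Fermat.Agent.S55.GlobalMod94.Generic

section Bridge

variable {k G : Type u} [CommRing k] [Group G] (𝒰 : LevelStr G) (M : Rep k G) (p : ℕ)

/-- `H3Van` of `canρ M` is `CD3.H3Vanishes` of `M.ρ` -/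
theorem h3Van_canρ_iff : H3Van 𝒰 (canρ M) ↔ CD3.H3Vanishes 𝒰 M.ρ := Iff.rfl

/-- full vanishing gives the torsion form -/
theorem h3TorsVan_of_h3Van {E : Type*} [AddCommGroup E] {ρE : Representation ℤ G E}
    (h : H3Van 𝒰 ρE) : H3TorsVan 𝒰 p ρE := fun f hf hdf _ => h f hf hdf

theorem h3TorsVan_canρ_of_H3Vanishes (h : CD3.H3Vanishes 𝒰 M.ρ) : H3TorsVan 𝒰 p (canρ M) :=
  h3TorsVan_of_h3Van 𝒰 p ((h3Van_canρ_iff 𝒰 M).2 h)

/-- the same over an open subgroup, in the binder shape `hH3J` of `GlobalForm.formation_res` -/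
theorem h3TorsVan_resSub_of_H3Vanishes (V : Subgroup G) (hV : IsOpenSub 𝒰 V)
    (h : CD3.H3Vanishes (restrictLevels 𝒰 V hV) (Rep.res V.subtype M).ρ) :
    H3TorsVan (restrictLevels 𝒰 V hV) p (resSub (canρ M) V) :=
  h3TorsVan_canρ_of_H3Vanishes (restrictLevels 𝒰 V hV) (Rep.res V.subtype M) p h

end Bridge

section Pi

variable {k G : Type u} [CommRing k] [Group G] (𝒰 : LevelStr G) (p : ℕ)
  {ι : Type u} [Finite ι] (A : ι → Rep.{u} k G)

theorem canρ_piObj_apply (g : G) (j : ∀ i, A i) (i : ι) :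
    (canρ (piObj A) g j) i = canρ (A i) g (j i) := rfl

/-- abstract product lemma: a family of `ℤ`-representations `ρ i` on `X i`, a representation `ρP`
on the product acting componentwise -/
theorem h3TorsVan_pi {H : Type*} [Group H] (𝒱 : LevelStr H) {X : ι → Type*}
    [∀ i, AddCommGroup (X i)] (ρ : ∀ i, Representation ℤ H (X i))
    (ρP : Representation ℤ H (∀ i, X i)) (hρ : ∀ g j i, ρP g j i = ρ i g (j i))
    (h : ∀ i, H3TorsVan 𝒱 p (ρ i)) : H3TorsVan 𝒱 p ρP := by
  intro f hf hdf hpf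
  have hcomp : ∀ i, ∃ b : H × H → X i, 𝒱.IsConst₂ b ∧ d23 (ρ i) b = fun x => f x i := by
    intro i
    refine h i (fun x => f x i) (isConst₃_comp hf (fun j : (∀ i, X i) => j i)) ?_ ?_
    · funext ⟨g, g1, g2, g3⟩
      have h1 := congrFun (congrFun hdf (g, g1, g2, g3)) i
      simp only [d34_apply, Pi.add_apply, Pi.sub_apply, Pi.zero_apply, hρ] at h1
      simpa only [d34_apply, Pi.zero_apply] using h1
    · intro x
      have h1 := congrFun (hpf x) i
      simpa only [Pi.smul_apply, Pi.zero_apply] using h1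
  choose b hb hdb using hcomp
  have hlev : ∀ i, ∃ U ∈ 𝒱.levels, ∀ g g1 s s1, s ∈ U → s1 ∈ U →
      b i (g * s, g1 * s1) = b i (g, g1) := fun i => hb i
  choose U hU hconst using hlev
  obtain ⟨W, hW, hle⟩ := exists_common_level 𝒱 U hU
  refine ⟨fun x i => b i x, ⟨W, hW, fun g g1 s s1 hs hs1 => ?_⟩, ?_⟩
  · funext i
    exact hconst i g g1 s s1 (hle i hs) (hle i hs1)
  · funext ⟨g, g1, g2⟩
    funext i
    have h1 := congrFun (hdb i) (g, g1, g2)
    simp only [d23_apply] at h1
    simp only [d23_apply, Pi.add_apply, Pi.sub_apply, hρ]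
    exact h1

/-- **finite products**: `H³[p] = 0` (cochain form) for every factor gives it for the product -/
theorem h3TorsVan_piObj (h : ∀ i, H3TorsVan 𝒰 p (canρ (A i))) :
    H3TorsVan 𝒰 p (canρ (piObj A)) :=
  h3TorsVan_pi p 𝒰 (fun i => canρ (A i)) (canρ (piObj A)) (fun _ _ _ => rfl) h

/-- the same over an open subgroup -/
theorem h3TorsVan_piObj_resSub (V : Subgroup G) (hV : IsOpenSub 𝒰 V)
    (h : ∀ i, H3TorsVan (restrictLevels 𝒰 V hV) p (resSub (canρ (A i)) V)) :
    H3TorsVan (restrictLevels 𝒰 V hV) p (resSub (canρ (piObj A)) V) :=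
  h3TorsVan_pi p (restrictLevels 𝒰 V hV) (fun i => resSub (canρ (A i)) V)
    (resSub (canρ (piObj A)) V) (fun _ _ _ => rfl) h

end Pi

end Fermat.Agent.S55.CDArith63.Pieces
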